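import Fermat.Agent.S25.DefsAlg

/-!
# Row S25, block ALGCHARTS: the formal reduction (helper926)

`Stmt.AlgCharts` asks for an `AlgChartFamily`.  Its field `locus` (an ideal of `A` for every
chart, cutting out the locus where a given gluing datum lies in that chart) is awkward to
produce directly.  This file reduces it, purely formally, to four statements about the charts
in which no ideal and no localisation occurs (`ChartAtlas`):

* `inj`    : a chart is a monomorphism of functors (same as in `AlgChartFamily`);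
* `fib`    : a rigidifiable degree-zero datum all of whose field-valued fibres lie in the chart
             lies in the chart;
* `spread` : if the fibre at one field-valued point lies in the chart, there is `a : A`, not
             vanishing at that point, such that every field-valued fibre over `D(a)` lies in
             the chart (openness of the chart locus + invariance under field extension);
* `cover`  : over an algebraically closed field every degree-zero datum lies in some chart.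

The locus ideal of chart `i` is the span of all `a` as in `spread`.

The three facts of the gluing-datum calculus that are needed (existence of base changes,
composition of base changes, stability of rigidifiability) are hypotheses
(`BCExists`, `BCComp`, `BCRig`).
-/

set_option autoImplicit false
universe u
open scoped TensorProduct

namespace Fermat.Agent.S25.H926

open Fermat.Agent.S25

section

variable (k : Type u) [Field k] (B₀ B₁ B₀₁ : Type u) [CommRing B₀] [CommRing B₁] [CommRing B₀₁]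
  [Algebra k B₀] [Algebra k B₁] [Algebra k B₀₁] [Algebra B₀ B₀₁] [Algebra B₁ B₀₁]
  [IsScalarTower k B₀ B₀₁] [IsScalarTower k B₁ B₀₁]

/-- GDC: base changes of gluing data exist. -/
def BCExists : Prop :=
  ∀ (A A' : Type u) [CommRing A] [Algebra k A] [CommRing A'] [Algebra k A'] (φ : A →ₐ[k] A')
    (G : CurveGD k B₀ B₁ B₀₁ A), ∃ G' : CurveGD k B₀ B₁ B₀₁ A', CurveGD.IsBC φ G G'

/-- GDC: base changes compose. -/
def BCComp : Prop :=
  ∀ (A A' A'' : Type u) [CommRing A] [Algebra k A] [CommRing A'] [Algebra k A'] [CommRing A'']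
    [Algebra k A''] (φ : A →ₐ[k] A') (ψ : A' →ₐ[k] A'') (G : CurveGD k B₀ B₁ B₀₁ A)
    (G' : CurveGD k B₀ B₁ B₀₁ A') (G'' : CurveGD k B₀ B₁ B₀₁ A''),
    CurveGD.IsBC φ G G' → CurveGD.IsBC ψ G' G'' → CurveGD.IsBC (ψ.comp φ) G G''

variable {B₀ B₀₁} in
/-- GDC: rigidifiability is stable under base change. -/
def BCRig (e : B₁ →ₐ[k] k) : Prop :=
  ∀ (A A' : Type u) [CommRing A] [Algebra k A] [CommRing A'] [Algebra k A'] (φ : A →ₐ[k] A')
    (G : CurveGD k B₀ B₁ B₀₁ A) (G' : CurveGD k B₀ B₁ B₀₁ A'),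
    CurveGD.IsBC φ G G' → G.Rigidifiable e → G'.Rigidifiable e

end

section

variable {k : Type u} [Field k] {B₀ B₁ B₀₁ : Type u} [CommRing B₀] [CommRing B₁] [CommRing B₀₁]
  [Algebra k B₀] [Algebra k B₁] [Algebra k B₀₁] [Algebra B₀ B₀₁] [Algebra B₁ B₀₁]
  [IsScalarTower k B₀ B₀₁] [IsScalarTower k B₁ B₀₁]

/-- The gluing datum `G` over `A` lies in the chart `(R, D)`: it is a base change of the
universal datum `D` over `R` along some `φ : R → A`. -/
def InChart {R : Type u} [CommRing R] [Algebra k R] (D : CurveGD k B₀ B₁ B₀₁ R)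
    {A : Type u} [CommRing A] [Algebra k A] (G : CurveGD k B₀ B₁ B₀₁ A) : Prop :=
  ∃ φ : R →ₐ[k] A, CurveGD.IsBC φ D G

theorem InChart.baseChange (hComp : BCComp k B₀ B₁ B₀₁) {R : Type u} [CommRing R] [Algebra k R]
    {D : CurveGD k B₀ B₁ B₀₁ R} {A A' : Type u} [CommRing A] [Algebra k A] [CommRing A']
    [Algebra k A'] {G : CurveGD k B₀ B₁ B₀₁ A} {G' : CurveGD k B₀ B₁ B₀₁ A'}
    (h : InChart D G) (ψ : A →ₐ[k] A') (hψ : CurveGD.IsBC ψ G G') : InChart D G' := by
  obtain ⟨φ, hφ⟩ := h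
  exact ⟨ψ.comp φ, hComp R A A' φ ψ D G G' hφ hψ⟩

theorem deg0_baseChange (hComp : BCComp k B₀ B₁ B₀₁) {A A' : Type u} [CommRing A] [Algebra k A]
    [CommRing A'] [Algebra k A'] {G : CurveGD k B₀ B₁ B₀₁ A} {G' : CurveGD k B₀ B₁ B₀₁ A'}
    (ψ : A →ₐ[k] A') (hψ : CurveGD.IsBC ψ G G') (h : G.Deg0) : G'.Deg0 := by
  intro K _ _ φ G'' hφ
  exact h K (φ.comp ψ) G'' (hComp A A' K ψ φ G G' G'' hψ hφ)

variable (k B₀ B₁ B₀₁) in
/-- A chart atlas of the algebraic Picard functor: charts with the four properties `inj`,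
`fib`, `spread`, `cover`.  No ideals, no localisations. -/
structure ChartAtlas (e : B₁ →ₐ[k] k) where
  ι : Type u
  R : ι → Type u
  [commRing : ∀ i, CommRing (R i)]
  [algebra : ∀ i, Algebra k (R i)]
  finiteType : ∀ i, Algebra.FiniteType k (R i)
  datum : ∀ i, CurveGD k B₀ B₁ B₀₁ (R i)
  rig : ∀ i, (datum i).Rigidifiable e
  deg0 : ∀ i, (datum i).Deg0
  /-- a chart is a monomorphism of functors -/
  inj : ∀ (i : ι) (A : Type u) [CommRing A] [Algebra k A] (φ ψ : R i →ₐ[k] A)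
    (G G' : CurveGD k B₀ B₁ B₀₁ A), CurveGD.IsBC φ (datum i) G →
      CurveGD.IsBC ψ (datum i) G' → G.IsIso G' → φ = ψ
  /-- fibrewise criterion: if all field-valued fibres lie in the chart, so does `G` -/
  fib : ∀ (i : ι) (A : Type u) [CommRing A] [Algebra k A] (G : CurveGD k B₀ B₁ B₀₁ A),
    G.Rigidifiable e → G.Deg0 →
    (∀ (K : Type u) [Field K] [Algebra k K] (ψ : A →ₐ[k] K) (GK : CurveGD k B₀ B₁ B₀₁ K),
      CurveGD.IsBC ψ G GK → InChart (datum i) GK) → InChart (datum i) G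
  /-- openness: if one field-valued fibre lies in the chart, so do all fibres over some `D(a)`
  containing the point -/
  spread : ∀ (i : ι) (A : Type u) [CommRing A] [Algebra k A] (G : CurveGD k B₀ B₁ B₀₁ A),
    G.Rigidifiable e → G.Deg0 →
    ∀ (K : Type u) [Field K] [Algebra k K] (ψ : A →ₐ[k] K) (GK : CurveGD k B₀ B₁ B₀₁ K),
      CurveGD.IsBC ψ G GK → InChart (datum i) GK →
      ∃ a : A, ψ a ≠ 0 ∧
        ∀ (L : Type u) [Field L] [Algebra k L] (θ : A →ₐ[k] L) (Gθ : CurveGD k B₀ B₁ B₀₁ L),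
          CurveGD.IsBC θ G Gθ → θ a ≠ 0 → InChart (datum i) Gθ
  /-- the charts cover: over an algebraically closed field every rigidifiable datum of degree
  zero lies in some chart -/
  cover : ∀ (K : Type u) [Field K] [Algebra k K] [IsAlgClosed K] (G : CurveGD k B₀ B₁ B₀₁ K),
    G.Rigidifiable e → G.degree = 0 → ∃ i, InChart (datum i) G

attribute [instance] ChartAtlas.commRing ChartAtlas.algebra

namespace ChartAtlas

variable {e : B₁ →ₐ[k] k} (𝒜 : ChartAtlas k B₀ B₁ B₀₁ e)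

/-- The set of `a : A` such that all field-valued fibres of `G` over `D(a)` lie in chart `i`. -/
def goodSet (i : 𝒜.ι) {A : Type u} [CommRing A] [Algebra k A] (G : CurveGD k B₀ B₁ B₀₁ A) :
    Set A :=
  {a | ∀ (L : Type u) [Field L] [Algebra k L] (θ : A →ₐ[k] L) (Gθ : CurveGD k B₀ B₁ B₀₁ L),
    CurveGD.IsBC θ G Gθ → θ a ≠ 0 → InChart (𝒜.datum i) Gθ}

/-- The locus ideal of chart `i` for the datum `G`. -/
def locusIdeal (i : 𝒜.ι) {A : Type u} [CommRing A] [Algebra k A] (G : CurveGD k B₀ B₁ B₀₁ A) :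
    Ideal A :=
  Ideal.span (𝒜.goodSet i G)

theorem iSup_locusIdeal (hEx : BCExists k B₀ B₁ B₀₁) (hRig : BCRig k B₁ (B₀ := B₀) (B₀₁ := B₀₁) e)
    {A : Type u} [CommRing A] [Algebra k A] (G : CurveGD k B₀ B₁ B₀₁ A)
    (hG : G.Rigidifiable e) (hG0 : G.Deg0) : (⨆ i, 𝒜.locusIdeal i G) = ⊤ := by
  by_contra hne
  obtain ⟨m, hm, hle⟩ := Ideal.exists_le_maximal _ hne
  let _ : Field (A ⧸ m) := Ideal.Quotient.field m
  let K := AlgebraicClosure (A ⧸ m)
  let ψ : A →ₐ[k] K := (IsScalarTower.toAlgHom k (A ⧸ m) K).comp (Ideal.Quotient.mkₐ k m)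
  obtain ⟨GK, hGK⟩ := hEx A K ψ G
  obtain ⟨i, hi⟩ := 𝒜.cover K GK (hRig A K ψ G GK hGK hG) (hG0 K ψ GK hGK)
  obtain ⟨a, ha, hgood⟩ := 𝒜.spread i A G hG hG0 K ψ GK hGK hi
  have hmem : a ∈ m := hle ((le_iSup (fun i => 𝒜.locusIdeal i G) i) (Ideal.subset_span hgood))
  apply ha
  have h0 : (Ideal.Quotient.mk m) a = 0 := Ideal.Quotient.eq_zero_iff_mem.2 hmem
  change algebraMap (A ⧸ m) K ((Ideal.Quotient.mk m) a) = 0
  rw [h0, map_zero]

theorem inChart_iff_map_locusIdeal (hEx : BCExists k B₀ B₁ B₀₁) (hComp : BCComp k B₀ B₁ B₀₁)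
    (hRig : BCRig k B₁ (B₀ := B₀) (B₀₁ := B₀₁) e)
    {A : Type u} [CommRing A] [Algebra k A] (G : CurveGD k B₀ B₁ B₀₁ A)
    (hG : G.Rigidifiable e) (hG0 : G.Deg0) (i : 𝒜.ι) (A' : Type u) [CommRing A'] [Algebra k A']
    (ψ : A →ₐ[k] A') (G' : CurveGD k B₀ B₁ B₀₁ A') (hψ : CurveGD.IsBC ψ G G') :
    (∃ φ : 𝒜.R i →ₐ[k] A', CurveGD.IsBC φ (𝒜.datum i) G') ↔
      (𝒜.locusIdeal i G).map ψ.toRingHom = ⊤ := by
  constructor
  · intro hin
    by_contra hne
    obtain ⟨m, hm, hle⟩ := Ideal.exists_le_maximal _ hne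
    let _ : Field (A' ⧸ m) := Ideal.Quotient.field m
    let χ : A' →ₐ[k] (A' ⧸ m) := Ideal.Quotient.mkₐ k m
    obtain ⟨GK, hGK⟩ := hEx A' (A' ⧸ m) χ G'
    have h1 : InChart (𝒜.datum i) GK := InChart.baseChange hComp hin χ hGK
    have h2 : CurveGD.IsBC (χ.comp ψ) G GK := hComp A A' (A' ⧸ m) ψ χ G G' GK hψ hGK
    obtain ⟨a, ha, hgood⟩ := 𝒜.spread i A G hG hG0 (A' ⧸ m) (χ.comp ψ) GK h2 h1
    apply ha
    have hmem : ψ a ∈ m := hle (Ideal.mem_map_of_mem ψ.toRingHom (Ideal.subset_span hgood))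
    exact Ideal.Quotient.eq_zero_iff_mem.2 hmem
  · intro htop
    refine 𝒜.fib i A' G' (hRig A A' ψ G G' hψ hG) (deg0_baseChange hComp ψ hψ hG0) ?_
    intro K _ _ χ GK hGK
    have h2 : CurveGD.IsBC (χ.comp ψ) G GK := hComp A A' K ψ χ G G' GK hψ hGK
    by_contra hnot
    -- every good `a` dies in `K`, so the locus ideal maps into `ker χ`
    have hzero : ∀ a ∈ 𝒜.goodSet i G, χ (ψ a) = 0 := by
      intro a ha
      by_contra hne
      exact hnot ((show ∀ (L : Type u) [Field L] [Algebra k L] (θ : A →ₐ[k] L)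
        (Gθ : CurveGD k B₀ B₁ B₀₁ L), CurveGD.IsBC θ G Gθ → θ a ≠ 0 →
          InChart (𝒜.datum i) Gθ from ha) K (χ.comp ψ) GK h2 hne)
    have hle : (𝒜.locusIdeal i G).map ψ.toRingHom ≤ RingHom.ker χ.toRingHom := by
      rw [Ideal.map_le_iff_le_comap]
      refine Ideal.span_le.2 ?_
      intro a ha
      exact hzero a ha
    rw [htop] at hle
    have : (1 : A') ∈ RingHom.ker χ.toRingHom := hle Submodule.mem_top
    rw [RingHom.mem_ker] at this
    simp at this

/-- **Formal reduction of ALGCHARTS**: a chart atlas gives an `AlgChartFamily`. -/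
def toAlgChartFamily (hEx : BCExists k B₀ B₁ B₀₁) (hComp : BCComp k B₀ B₁ B₀₁)
    (hRig : BCRig k B₁ (B₀ := B₀) (B₀₁ := B₀₁) e) : AlgChartFamily k B₀ B₁ B₀₁ e where
  ι := 𝒜.ι
  R := 𝒜.R
  finiteType := 𝒜.finiteType
  datum := 𝒜.datum
  rig := 𝒜.rig
  deg0 := 𝒜.deg0
  inj := 𝒜.inj
  locus := fun _ _ _ G hG hG0 =>
    ⟨fun i => 𝒜.locusIdeal i G, 𝒜.iSup_locusIdeal hEx hRig G hG hG0,
      fun i A' _ _ ψ G' hψ =>
        𝒜.inChart_iff_map_locusIdeal hEx hComp hRig G hG hG0 i A' ψ G' hψ⟩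

end ChartAtlas

/-- `Stmt.AlgCharts` from: the three GDC facts and, for every curve chart, a chart atlas. -/
theorem algCharts_of_atlas (hEx : BCExists k B₀ B₁ B₀₁) (hComp : BCComp k B₀ B₁ B₀₁)
    (hRig : ∀ e : B₁ →ₐ[k] k, BCRig k B₁ (B₀ := B₀) (B₀₁ := B₀₁) e)
    (hAtlas : ∀ (x : B₀) (y : B₁) (e : B₁ →ₐ[k] k), IsCurveChart k B₀ B₁ B₀₁ x y e →
      Nonempty (ChartAtlas k B₀ B₁ B₀₁ e)) :
    Stmt.AlgCharts k B₀ B₁ B₀₁ := by
  intro x y e hC
  obtain ⟨𝒜⟩ := hAtlas x y e hC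
  exact ⟨𝒜.toAlgChartFamily hEx hComp (hRig e)⟩

end

end Fermat.Agent.S25.H926
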