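/-
S25, block GLUE, piece G1 (helper926): morphisms of sheaves of modules glue.

Layer (a): "basis form".  `B` a downward closed set of opens of a scheme `X` such that every open
is covered by members of `B`.  A family of additive maps `a W : Γ(M, W) → Γ(M', W)`, `W ∈ B`,
compatible with restriction and `𝒪`-linear, is induced by a unique morphism `M ⟶ M'`.
-/
import Mathlib

set_option autoImplicit false

universe u

open CategoryTheory AlgebraicGeometry TopologicalSpace Opposite

namespace Fermat.Agent.S25.H926

variable {X : Scheme.{u}}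

/-- A set of opens of `X` which is downward closed and such that every open of `X` is the union
of the members of `B` contained in it. -/
structure IsDownBasis (B : Set X.Opens) : Prop where
  down : ∀ {W W' : X.Opens}, W ∈ B → W' ≤ W → W' ∈ B
  cover : ∀ V : X.Opens, V ≤ ⨆ W : {W : X.Opens // W ∈ B ∧ W ≤ V}, (W : X.Opens)

/-- Local data for a morphism `M ⟶ M'` on a down-basis `B`. -/
structure BasisHomData (B : Set X.Opens) (M M' : X.Modules) where
  a : ∀ W : X.Opens, W ∈ B → (Γ(M, W) →+ Γ(M', W))
  nat : ∀ (W W' : X.Opens) (hW : W ∈ B) (hW' : W' ∈ B) (h : W' ≤ W) (s : Γ(M, W)),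
    a W' hW' (M.presheaf.map (homOfLE h).op s) = M'.presheaf.map (homOfLE h).op (a W hW s)
  lin : ∀ (W : X.Opens) (hW : W ∈ B) (r : Γ(X, W)) (s : Γ(M, W)),
    a W hW (r • s) = r • a W hW s

variable {B : Set X.Opens} {M M' : X.Modules}

/-- The sheaf of abelian groups underlying a sheaf of modules. -/
noncomputable def abSheaf (M : X.Modules) : TopCat.Sheaf Ab X := ⟨M.presheaf, M.isSheaf⟩

namespace BasisHomData

variable (hB : IsDownBasis B) (D : BasisHomData B M M')

/-- The index type of the canonical cover of `V` by members of `B`. -/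
abbrev Idx (B : Set X.Opens) (V : X.Opens) : Type u := {W : X.Opens // W ∈ B ∧ W ≤ V}

/-- the local family attached to a section -/
noncomputable def fam (V : X.Opens) (s : Γ(M, V)) (W : Idx B V) : Γ(M', W.1) :=
  D.a W.1 W.2.1 (M.presheaf.map (homOfLE W.2.2).op s)

include hB in
lemma fam_compatible (V : X.Opens) (s : Γ(M, V)) :
    TopCat.Presheaf.IsCompatible M'.presheaf (fun W : Idx B V => W.1) (D.fam V s) := by
  intro W W'
  have h1 : W.1 ⊓ W'.1 ∈ B := hB.down W.2.1 inf_le_left
  have e1 := D.nat W.1 (W.1 ⊓ W'.1) W.2.1 h1 inf_le_left (M.presheaf.map (homOfLE W.2.2).op s)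
  have e2 := D.nat W'.1 (W.1 ⊓ W'.1) W'.2.1 h1 inf_le_right
    (M.presheaf.map (homOfLE W'.2.2).op s)
  simp only [fam]
  erw [← e1, ← e2]
  congr 1
  rw [← ConcreteCategory.comp_apply, ← ConcreteCategory.comp_apply, ← Functor.map_comp,
    ← Functor.map_comp]
  rfl

include hB in
lemma exists_unique_glue (V : X.Opens) (s : Γ(M, V)) :
    ∃! t : Γ(M', V), ∀ W : Idx B V,
      M'.presheaf.map (homOfLE W.2.2).op t = D.fam V s W :=
  (abSheaf M').existsUnique_gluing' (fun W : Idx B V => W.1) V (fun W => homOfLE W.2.2)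
    (hB.cover V) (D.fam V s) (D.fam_compatible hB V s)

/-- The glued map on sections over an arbitrary open. -/
noncomputable def glueFun (V : X.Opens) (s : Γ(M, V)) : Γ(M', V) :=
  (D.exists_unique_glue hB V s).choose

lemma glueFun_spec (V : X.Opens) (s : Γ(M, V)) (W : Idx B V) :
    M'.presheaf.map (homOfLE W.2.2).op (D.glueFun hB V s) = D.fam V s W :=
  (D.exists_unique_glue hB V s).choose_spec.1 W

lemma glueFun_unique (V : X.Opens) (s : Γ(M, V)) (t : Γ(M', V))
    (ht : ∀ W : Idx B V, M'.presheaf.map (homOfLE W.2.2).op t = D.fam V s W) :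
    t = D.glueFun hB V s :=
  (D.exists_unique_glue hB V s).choose_spec.2 t ht

lemma glueFun_add (V : X.Opens) (s s' : Γ(M, V)) :
    D.glueFun hB V (s + s') = D.glueFun hB V s + D.glueFun hB V s' := by
  symm
  apply D.glueFun_unique hB
  intro W
  rw [map_add, D.glueFun_spec hB, D.glueFun_spec hB]
  simp only [fam, map_add]

lemma glueFun_map {V V' : X.Opens} (h : V' ≤ V) (s : Γ(M, V)) :
    D.glueFun hB V' (M.presheaf.map (homOfLE h).op s) =
      M'.presheaf.map (homOfLE h).op (D.glueFun hB V s) := by
  symm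
  apply D.glueFun_unique hB
  intro W
  have := D.glueFun_spec hB V s ⟨W.1, W.2.1, W.2.2.trans h⟩
  simp only [fam] at this ⊢
  rw [← ConcreteCategory.comp_apply, ← Functor.map_comp, ← ConcreteCategory.comp_apply,
    ← Functor.map_comp]
  exact this

lemma glueFun_smul (V : X.Opens) (r : Γ(X, V)) (s : Γ(M, V)) :
    D.glueFun hB V (r • s) = r • D.glueFun hB V s := by
  symm
  apply D.glueFun_unique hB
  intro W
  have := D.glueFun_spec hB V s W
  simp only [fam] at this ⊢
  rw [Scheme.Modules.map_smul, this, Scheme.Modules.map_smul, D.lin]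

lemma glueFun_eq_of_mem (W : X.Opens) (hW : W ∈ B) (s : Γ(M, W)) :
    D.glueFun hB W s = D.a W hW s := by
  symm
  apply D.glueFun_unique hB
  intro W'
  simp only [fam]
  rw [D.nat W W'.1 hW W'.2.1 W'.2.2]

/-- The glued map as a morphism of presheaves of abelian groups. -/
noncomputable def gluePresheafHom : M.presheaf ⟶ M'.presheaf where
  app V := AddCommGrpCat.ofHom
    (AddMonoidHom.mk' (D.glueFun hB V.unop) (D.glueFun_add hB V.unop))
  naturality V V' f := by
    ext s
    exact D.glueFun_map hB (leOfHom f.unop) s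

/-- The glued morphism of sheaves of modules. -/
noncomputable def glue : M ⟶ M' :=
  ⟨PresheafOfModules.homMk (D.gluePresheafHom hB) (fun V r m => D.glueFun_smul hB V.unop r m)⟩

lemma glue_app_apply (V : X.Opens) (s : Γ(M, V)) :
    (D.glue hB).app V s = D.glueFun hB V s := rfl

lemma glue_app_of_mem (W : X.Opens) (hW : W ∈ B) (s : Γ(M, W)) :
    (D.glue hB).app W s = D.a W hW s :=
  D.glueFun_eq_of_mem hB W hW s

end BasisHomData

/-- **G1, basis form.** Local data on a down-basis glue to a unique morphism. -/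
theorem existsUnique_hom_of_basisHomData (hB : IsDownBasis B) (D : BasisHomData B M M') :
    ∃! f : M ⟶ M', ∀ (W : X.Opens) (hW : W ∈ B) (s : Γ(M, W)), f.app W s = D.a W hW s := by
  refine ⟨D.glue hB, fun W hW s => D.glue_app_of_mem hB W hW s, fun f hf => ?_⟩
  apply Scheme.Modules.hom_ext
  intro V
  ext s
  rw [BasisHomData.glue_app_apply]
  apply D.glueFun_unique hB
  intro W
  simp only [BasisHomData.fam]
  rw [← hf W.1 W.2.1]
  exact (ConcreteCategory.congr_hom (f.mapPresheaf.naturality (homOfLE W.2.2).op) s).symm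

/-- Two morphisms agreeing on a down-basis are equal. -/
theorem hom_ext_of_basis (hB : IsDownBasis B) (f g : M ⟶ M')
    (h : ∀ (W : X.Opens) (_ : W ∈ B) (s : Γ(M, W)), f.app W s = g.app W s) : f = g := by
  let D : BasisHomData B M M' :=
    { a := fun W _ => (g.app W).hom
      nat := fun W W' _ _ h s =>
        (ConcreteCategory.congr_hom (g.mapPresheaf.naturality (homOfLE h).op) s)
      lin := fun W _ r s => g.app_smul r s }
  obtain ⟨_, _, huniq⟩ := existsUnique_hom_of_basisHomData hB D
  exact (huniq f fun W hW s => h W hW s).trans (huniq g fun _ _ _ => rfl).symm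

end Fermat.Agent.S25.H926
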