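/-
S25, block GLUE, piece G1 (helper926), layer (b): morphisms of sheaves of modules glue along a
jointly surjective family of open immersions (`restrictFunctor` form).
-/
import Fermat.Agent.S25.H926.GlueHom

set_option autoImplicit false

universe u

open CategoryTheory AlgebraicGeometry TopologicalSpace Opposite

namespace Fermat.Agent.S25.H926

variable {X Y : Scheme.{u}} {M M' : X.Modules}

section SectionMap

variable (f : Y ⟶ X) [IsOpenImmersion f]

/-- Sections of the restriction, viewed as sections of the original module (the identity). -/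
noncomputable def ofRestr (N : X.Modules) (V : Y.Opens) :
    Γ(N.restrict f, V) →+ Γ(N, f ''ᵁ V) := AddMonoidHom.id _

/-- Sections of the original module over an image, viewed as sections of the restriction
(the identity). -/
noncomputable def toRestr (N : X.Modules) (V : Y.Opens) :
    Γ(N, f ''ᵁ V) →+ Γ(N.restrict f, V) := AddMonoidHom.id _

@[simp] lemma ofRestr_toRestr (N : X.Modules) (V : Y.Opens) (x : Γ(N, f ''ᵁ V)) :
    ofRestr f N V (toRestr f N V x) = x := rfl

@[simp] lemma toRestr_ofRestr (N : X.Modules) (V : Y.Opens) (x : Γ(N.restrict f, V)) :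
    toRestr f N V (ofRestr f N V x) = x := rfl

lemma ofRestr_smul (N : X.Modules) (V : Y.Opens) (r' : Γ(Y, V)) (x : Γ(N.restrict f, V)) :
    ofRestr f N V (r' • x) = ((f.appIso V).inv r') • ofRestr f N V x := rfl

lemma toRestr_smul (N : X.Modules) (V : Y.Opens) (r : Γ(X, f ''ᵁ V)) (x : Γ(N, f ''ᵁ V)) :
    toRestr f N V (r • x) = ((f.appIso V).hom r) • toRestr f N V x := by
  have h := ofRestr_smul f N V ((f.appIso V).hom r) (toRestr f N V x)
  have e : (f.appIso V).inv ((f.appIso V).hom r) = r := by simp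
  rw [e] at h
  exact h.symm

lemma ofRestr_map (N : X.Modules) {V V' : Y.Opens} (h : V' ≤ V) (x : Γ(N.restrict f, V)) :
    ofRestr f N V' ((N.restrict f).presheaf.map (homOfLE h).op x) =
      N.presheaf.map (homOfLE (f.image_mono h)).op (ofRestr f N V x) := rfl

lemma toRestr_map (N : X.Modules) {V V' : Y.Opens} (h : V' ≤ V) (x : Γ(N, f ''ᵁ V)) :
    toRestr f N V' (N.presheaf.map (homOfLE (f.image_mono h)).op x) =
      (N.restrict f).presheaf.map (homOfLE h).op (toRestr f N V x) := rfl

/-- A morphism between restrictions, read on sections over the image of an open of `Y`. -/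
noncomputable def imageMap (ψ : M.restrict f ⟶ M'.restrict f) (V : Y.Opens) :
    Γ(M, f ''ᵁ V) →+ Γ(M', f ''ᵁ V) :=
  (ofRestr f M' V).comp (((ψ.app V).hom).comp (toRestr f M V))

lemma imageMap_apply (ψ : M.restrict f ⟶ M'.restrict f) (V : Y.Opens) (s : Γ(M, f ''ᵁ V)) :
    imageMap f ψ V s = ofRestr f M' V (ψ.app V (toRestr f M V s)) := rfl

lemma imageMap_smul (ψ : M.restrict f ⟶ M'.restrict f) (V : Y.Opens) (r : Γ(X, f ''ᵁ V))
    (s : Γ(M, f ''ᵁ V)) : imageMap f ψ V (r • s) = r • imageMap f ψ V s := by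
  rw [imageMap_apply, imageMap_apply, toRestr_smul, Scheme.Modules.Hom.app_smul, ofRestr_smul]
  congr 1
  simp

lemma imageMap_map (ψ : M.restrict f ⟶ M'.restrict f) {V V' : Y.Opens} (h : V' ≤ V)
    (s : Γ(M, f ''ᵁ V)) :
    imageMap f ψ V' (M.presheaf.map (homOfLE (f.image_mono h)).op s) =
      M'.presheaf.map (homOfLE (f.image_mono h)).op (imageMap f ψ V s) := by
  rw [imageMap_apply, imageMap_apply, toRestr_map, ← ofRestr_map]
  congr 1
  exact ConcreteCategory.congr_hom (ψ.mapPresheaf.naturality (homOfLE h).op) (toRestr f M V s)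

lemma imageMap_restrictFunctor_map (g : M ⟶ M') (V : Y.Opens) (s : Γ(M, f ''ᵁ V)) :
    imageMap f ((Scheme.Modules.restrictFunctor f).map g) V s = g.app (f ''ᵁ V) s := rfl

lemma image_preimage_of_le {W : X.Opens} (hW : W ≤ f.opensRange) : f ''ᵁ (f ⁻¹ᵁ W) = W := by
  rw [Scheme.Hom.image_preimage_eq_opensRange_inf]
  exact inf_eq_right.mpr hW

/-- A morphism between restrictions, read on the sections over an open `W` of `X` contained in
the image. -/
noncomputable def sectionMap (ψ : M.restrict f ⟶ M'.restrict f) (W : X.Opens)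
    (hW : W ≤ f.opensRange) : Γ(M, W) →+ Γ(M', W) :=
  ((M'.presheaf.map (eqToHom (image_preimage_of_le f hW).symm).op).hom).comp
    ((imageMap f ψ (f ⁻¹ᵁ W)).comp
      (M.presheaf.map (eqToHom (image_preimage_of_le f hW)).op).hom)

lemma sectionMap_apply (ψ : M.restrict f ⟶ M'.restrict f) (W : X.Opens)
    (hW : W ≤ f.opensRange) (s : Γ(M, W)) :
    sectionMap f ψ W hW s =
      M'.presheaf.map (eqToHom (image_preimage_of_le f hW).symm).op
        (imageMap f ψ (f ⁻¹ᵁ W) (M.presheaf.map (eqToHom (image_preimage_of_le f hW)).op s)) :=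
  rfl

/-- Restriction along a composite of inclusions of opens. -/
lemma presheaf_map_map (N : X.Modules) {U₁ U₂ U₃ : X.Opens} (i : U₁ ⟶ U₂) (j : U₂ ⟶ U₃)
    (k : U₁ ⟶ U₃) (x : Γ(N, U₃)) :
    N.presheaf.map i.op (N.presheaf.map j.op x) = N.presheaf.map k.op x := by
  rw [← ConcreteCategory.comp_apply, ← Functor.map_comp, ← op_comp]
  rw [Subsingleton.elim (i ≫ j) k]

lemma presheaf_map_self (N : X.Modules) {U₁ : X.Opens} (i : U₁ ⟶ U₁) (x : Γ(N, U₁)) :
    N.presheaf.map i.op x = x := by
  rw [Subsingleton.elim i (𝟙 _)]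
  simp

lemma sectionMap_smul (ψ : M.restrict f ⟶ M'.restrict f) (W : X.Opens)
    (hW : W ≤ f.opensRange) (r : Γ(X, W)) (s : Γ(M, W)) :
    sectionMap f ψ W hW (r • s) = r • sectionMap f ψ W hW s := by
  rw [sectionMap_apply, sectionMap_apply, Scheme.Modules.map_smul, imageMap_smul,
    Scheme.Modules.map_smul]
  congr 1
  rw [← ConcreteCategory.comp_apply, ← Functor.map_comp, ← op_comp]
  rw [Subsingleton.elim (eqToHom (image_preimage_of_le f hW).symm ≫
    eqToHom (image_preimage_of_le f hW)) (𝟙 _)]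
  simp

lemma sectionMap_map (ψ : M.restrict f ⟶ M'.restrict f) {W W' : X.Opens}
    (hW : W ≤ f.opensRange) (h : W' ≤ W) (s : Γ(M, W)) :
    sectionMap f ψ W' (h.trans hW) (M.presheaf.map (homOfLE h).op s) =
      M'.presheaf.map (homOfLE h).op (sectionMap f ψ W hW s) := by
  have hpre : f ⁻¹ᵁ W' ≤ f ⁻¹ᵁ W := fun x hx => h hx
  rw [sectionMap_apply, sectionMap_apply]
  rw [presheaf_map_map M _ _ ((homOfLE (f.image_mono hpre)) ≫
    eqToHom (image_preimage_of_le f hW))]
  rw [op_comp, Functor.map_comp, ConcreteCategory.comp_apply, imageMap_map f ψ hpre]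
  rw [presheaf_map_map M' _ _ (eqToHom (image_preimage_of_le f (h.trans hW)).symm ≫
    homOfLE (f.image_mono hpre))]
  rw [presheaf_map_map M' _ _ (eqToHom (image_preimage_of_le f (h.trans hW)).symm ≫
    homOfLE (f.image_mono hpre))]

lemma sectionMap_restrictFunctor_map (g : M ⟶ M') (W : X.Opens) (hW : W ≤ f.opensRange)
    (s : Γ(M, W)) :
    sectionMap f ((Scheme.Modules.restrictFunctor f).map g) W hW s = g.app W s := by
  rw [sectionMap_apply, imageMap_restrictFunctor_map]
  have := ConcreteCategory.congr_hom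
    (g.mapPresheaf.naturality (eqToHom (image_preimage_of_le f hW)).op) s
  simp only [Scheme.Modules.mapPresheaf_app, ConcreteCategory.comp_apply] at this
  erw [this]
  rw [presheaf_map_map M' _ _ (𝟙 _)]
  simp

lemma sectionMap_image (ψ : M.restrict f ⟶ M'.restrict f) (V : Y.Opens)
    (s : Γ(M, f ''ᵁ V)) :
    sectionMap f ψ (f ''ᵁ V) (f.image_le_opensRange V) s = imageMap f ψ V s := by
  have hV : f ⁻¹ᵁ (f ''ᵁ V) = V := f.preimage_image_eq V
  have h1 : f ⁻¹ᵁ (f ''ᵁ V) ≤ V := hV.le
  rw [sectionMap_apply]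
  rw [Subsingleton.elim (eqToHom (image_preimage_of_le f (f.image_le_opensRange V)))
    (homOfLE (f.image_mono h1))]
  rw [imageMap_map f ψ h1]
  rw [presheaf_map_map M' _ _ (𝟙 _)]
  simp

end SectionMap

section Cover

variable {ι : Type*} {Z : ι → Scheme.{u}} (f : ∀ i, Z i ⟶ X) [∀ i, IsOpenImmersion (f i)]

/-- The opens of `X` contained in the image of one of the `f i`. -/
def coverBasis : Set X.Opens := {W | ∃ i, W ≤ (f i).opensRange}

lemma isDownBasis_coverBasis (hf : ⨆ i, (f i).opensRange = ⊤) : IsDownBasis (coverBasis f) where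
  down := fun ⟨i, hi⟩ h => ⟨i, h.trans hi⟩
  cover := fun V x hx => by
    have hx' : x ∈ ⨆ i, (f i).opensRange := by rw [hf]; trivial
    obtain ⟨i, hi⟩ := Opens.mem_iSup.mp hx'
    exact Opens.mem_iSup.mpr ⟨⟨V ⊓ (f i).opensRange, ⟨i, inf_le_right⟩, inf_le_left⟩, hx, hi⟩

/-- The basis data attached to a compatible family of morphisms between restrictions. -/
noncomputable def coverHomData (φ : ∀ i, M.restrict (f i) ⟶ M'.restrict (f i))
    (hφ : ∀ (i j : ι) (W : X.Opens) (hi : W ≤ (f i).opensRange) (hj : W ≤ (f j).opensRange)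
      (s : Γ(M, W)), sectionMap (f i) (φ i) W hi s = sectionMap (f j) (φ j) W hj s) :
    BasisHomData (coverBasis f) M M' where
  a W hW := sectionMap (f hW.choose) (φ hW.choose) W hW.choose_spec
  nat W W' hW hW' h s := by
    rw [hφ hW'.choose hW.choose W' hW'.choose_spec (h.trans hW.choose_spec)]
    exact sectionMap_map (f hW.choose) (φ hW.choose) hW.choose_spec h s
  lin W hW r s := sectionMap_smul (f hW.choose) (φ hW.choose) W hW.choose_spec r s

lemma coverHomData_a (φ : ∀ i, M.restrict (f i) ⟶ M'.restrict (f i))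
    (hφ : ∀ (i j : ι) (W : X.Opens) (hi : W ≤ (f i).opensRange) (hj : W ≤ (f j).opensRange)
      (s : Γ(M, W)), sectionMap (f i) (φ i) W hi s = sectionMap (f j) (φ j) W hj s)
    (W : X.Opens) (i : ι) (hi : W ≤ (f i).opensRange) (s : Γ(M, W)) :
    (coverHomData f φ hφ).a W ⟨i, hi⟩ s = sectionMap (f i) (φ i) W hi s :=
  hφ (Exists.choose (⟨i, hi⟩ : W ∈ coverBasis f)) i W
    (Exists.choose_spec (⟨i, hi⟩ : W ∈ coverBasis f)) hi s

/-- **G1, cover form.** Morphisms between the restrictions of two sheaves of modules to the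
members of an open cover (given by open immersions), agreeing sectionwise on overlaps, glue to
a unique global morphism. -/
theorem existsUnique_hom_of_cover (hf : ⨆ i, (f i).opensRange = ⊤)
    (φ : ∀ i, M.restrict (f i) ⟶ M'.restrict (f i))
    (hφ : ∀ (i j : ι) (W : X.Opens) (hi : W ≤ (f i).opensRange) (hj : W ≤ (f j).opensRange)
      (s : Γ(M, W)), sectionMap (f i) (φ i) W hi s = sectionMap (f j) (φ j) W hj s) :
    ∃! g : M ⟶ M', ∀ i, (Scheme.Modules.restrictFunctor (f i)).map g = φ i := by
  obtain ⟨g, hg, huniq⟩ :=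
    existsUnique_hom_of_basisHomData (isDownBasis_coverBasis f hf) (coverHomData f φ hφ)
  refine ⟨g, fun i => ?_, fun g' hg' => ?_⟩
  · apply Scheme.Modules.hom_ext
    intro V
    ext s
    have h1 := hg ((f i) ''ᵁ V) ⟨i, (f i).image_le_opensRange V⟩ (ofRestr (f i) M V s)
    rw [coverHomData_a f φ hφ _ i ((f i).image_le_opensRange V), sectionMap_image] at h1
    exact h1
  · apply huniq
    intro W hW s
    obtain ⟨i, hi⟩ := hW
    rw [coverHomData_a f φ hφ W i hi, ← hg' i, sectionMap_restrictFunctor_map]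

/-- Two morphisms of sheaves of modules whose restrictions to the members of an open cover agree
are equal. -/
theorem hom_ext_of_cover (hf : ⨆ i, (f i).opensRange = ⊤) (g g' : M ⟶ M')
    (h : ∀ i, (Scheme.Modules.restrictFunctor (f i)).map g =
      (Scheme.Modules.restrictFunctor (f i)).map g') : g = g' := by
  apply hom_ext_of_basis (isDownBasis_coverBasis f hf)
  rintro W ⟨i, hi⟩ s
  rw [← sectionMap_restrictFunctor_map (f i) g W hi, h i, sectionMap_restrictFunctor_map]

end Cover

end Fermat.Agent.S25.H926
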