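/-
S25, block GLUE, piece G1 (helper926), layer (c): isomorphisms glue; being an isomorphism is
local on an open cover.
-/
import Fermat.Agent.S25.H926.GlueHomCover

set_option autoImplicit false

universe u

open CategoryTheory AlgebraicGeometry TopologicalSpace Opposite

namespace Fermat.Agent.S25.H926

variable {X Y : Scheme.{u}} {M M' M'' : X.Modules}

section SectionMapFunctorial

variable (f : Y ⟶ X) [IsOpenImmersion f]

lemma imageMap_id (V : Y.Opens) (s : Γ(M, f ''ᵁ V)) :
    imageMap f (𝟙 (M.restrict f)) V s = s := rfl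

lemma imageMap_comp (ψ : M.restrict f ⟶ M'.restrict f) (ψ' : M'.restrict f ⟶ M''.restrict f)
    (V : Y.Opens) (s : Γ(M, f ''ᵁ V)) :
    imageMap f (ψ ≫ ψ') V s = imageMap f ψ' V (imageMap f ψ V s) := rfl

lemma sectionMap_id (W : X.Opens) (hW : W ≤ f.opensRange) (s : Γ(M, W)) :
    sectionMap f (𝟙 (M.restrict f)) W hW s = s := by
  rw [sectionMap_apply, imageMap_id, presheaf_map_map M _ _ (𝟙 _)]
  simp

lemma sectionMap_comp (ψ : M.restrict f ⟶ M'.restrict f) (ψ' : M'.restrict f ⟶ M''.restrict f)
    (W : X.Opens) (hW : W ≤ f.opensRange) (s : Γ(M, W)) :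
    sectionMap f (ψ ≫ ψ') W hW s = sectionMap f ψ' W hW (sectionMap f ψ W hW s) := by
  rw [sectionMap_apply, sectionMap_apply, sectionMap_apply, imageMap_comp]
  congr 2
  rw [presheaf_map_map M' _ _ (𝟙 _)]
  simp

lemma sectionMap_inv_hom (e : M.restrict f ≅ M'.restrict f) (W : X.Opens)
    (hW : W ≤ f.opensRange) (s : Γ(M, W)) :
    sectionMap f e.inv W hW (sectionMap f e.hom W hW s) = s := by
  rw [← sectionMap_comp, e.hom_inv_id, sectionMap_id]

lemma sectionMap_hom_inv (e : M.restrict f ≅ M'.restrict f) (W : X.Opens)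
    (hW : W ≤ f.opensRange) (s : Γ(M', W)) :
    sectionMap f e.hom W hW (sectionMap f e.inv W hW s) = s := by
  rw [← sectionMap_comp, e.inv_hom_id, sectionMap_id]

end SectionMapFunctorial

section Cover

variable {ι : Type*} {Z : ι → Scheme.{u}} (f : ∀ i, Z i ⟶ X) [∀ i, IsOpenImmersion (f i)]

/-- **G1, isomorphisms glue.** -/
theorem exists_iso_of_cover (hf : ⨆ i, (f i).opensRange = ⊤)
    (e : ∀ i, M.restrict (f i) ≅ M'.restrict (f i))
    (he : ∀ (i j : ι) (W : X.Opens) (hi : W ≤ (f i).opensRange) (hj : W ≤ (f j).opensRange)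
      (s : Γ(M, W)), sectionMap (f i) (e i).hom W hi s = sectionMap (f j) (e j).hom W hj s) :
    ∃ g : M ≅ M', ∀ i, (Scheme.Modules.restrictFunctor (f i)).mapIso g = e i := by
  have he' : ∀ (i j : ι) (W : X.Opens) (hi : W ≤ (f i).opensRange) (hj : W ≤ (f j).opensRange)
      (s : Γ(M', W)), sectionMap (f i) (e i).inv W hi s = sectionMap (f j) (e j).inv W hj s := by
    intro i j W hi hj s
    have h1 := he i j W hi hj (sectionMap (f i) (e i).inv W hi s)
    rw [sectionMap_hom_inv] at h1
    have h2 := congrArg (sectionMap (f j) (e j).inv W hj) h1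
    rw [sectionMap_inv_hom] at h2
    exact h2.symm
  obtain ⟨g, hg, -⟩ := existsUnique_hom_of_cover f hf (fun i => (e i).hom) he
  obtain ⟨g', hg', -⟩ := existsUnique_hom_of_cover f hf (fun i => (e i).inv) he'
  refine ⟨⟨g, g', ?_, ?_⟩, fun i => ?_⟩
  · apply hom_ext_of_cover f hf
    intro i
    rw [CategoryTheory.Functor.map_comp, hg, hg', CategoryTheory.Functor.map_id, Iso.hom_inv_id]
  · apply hom_ext_of_cover f hf
    intro i
    rw [CategoryTheory.Functor.map_comp, hg', hg, CategoryTheory.Functor.map_id, Iso.inv_hom_id]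
  · ext1
    exact hg i

/-- Being an isomorphism is local on an open cover. -/
theorem isIso_of_cover (hf : ⨆ i, (f i).opensRange = ⊤) (g : M ⟶ M')
    (h : ∀ i, IsIso ((Scheme.Modules.restrictFunctor (f i)).map g)) : IsIso g := by
  obtain ⟨e, he⟩ := exists_iso_of_cover (M := M) (M' := M') f hf
    (fun i => @asIso _ _ _ _ ((Scheme.Modules.restrictFunctor (f i)).map g) (h i))
    (fun i j W hi hj s => by
      simp only [asIso_hom]
      rw [sectionMap_restrictFunctor_map, sectionMap_restrictFunctor_map])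
  have : e.hom = g := by
    apply hom_ext_of_cover f hf
    intro i
    have := congrArg Iso.hom (he i)
    simpa using this
  rw [← this]
  infer_instance

end Cover

end Fermat.Agent.S25.H926
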