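import Fermat.Agent.S25.H11.ACLeaves
import Fermat.Agent.S25.H926.AlgChartsFormal
import Fermat.Agent.S25.H265.GDCCurve
import Fermat.Agent.S25.H265.GDCRig
import Fermat.Agent.S25.H265.GDCDeg
import Fermat.Agent.S25.H265.GDCBaseChange

/-!
# Row S25, block ALGCHARTS: TOP (helper926)

`Stmt.AlgCharts` from the frozen leaves `H11.Leaf.{Stage0, …, Stage4, PointBC, PointUnique,
PointIso, Cover}` of helper11 (`H11/ACLeaves.lean`), the gluing-datum calculus of helper265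
(`H265/GDC*.lean`) and the formal reduction `H926.algCharts_of_atlas`.

Method.  A predicate `P` on gluing data is *good* (relative to a base-change stable condition
`C`) if (`fib`) a datum all of whose field-valued fibres satisfy `P` satisfies `P`, and
(`spreads`) if one field-valued fibre satisfies `P` then so do all fibres over some `D(a)`.
A predicate with a locus ideal is good (`good_of_hasLocus`); if `P` is good, `Q → P`, and `Q`
has a locus ideal on every datum satisfying `P`, then `Q` is good (`Good.step`, by localising at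
one element).  Hence `P4` (membership in a chart) is good, which is what `ChartAtlas` needs.
No composition of stage ideals is needed.
-/

set_option autoImplicit false
universe u
open scoped TensorProduct

namespace Fermat.Agent.S25.H926

open Fermat.Agent.S25 Fermat.Agent.S25.H11

variable {k : Type u} [Field k] {B₀ B₁ B₀₁ : Type u} [CommRing B₀] [CommRing B₁] [CommRing B₀₁]
  [Algebra k B₀] [Algebra k B₁] [Algebra k B₀₁] [Algebra B₀ B₀₁] [Algebra B₁ B₀₁]
  [IsScalarTower k B₀ B₀₁] [IsScalarTower k B₁ B₀₁]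

/-! ## The GDC facts in the form of `AlgChartsFormal` -/

theorem bcExists_h265 : BCExists k B₀ B₁ B₀₁ :=
  fun _ _ _ _ _ _ φ G => H265.curveGD_exists_isBC φ G

theorem bcComp_h265 : BCComp k B₀ B₁ B₀₁ :=
  fun _ _ _ _ _ _ _ _ _ _ _ _ _ _ h h' => H265.curveGD_isBC_comp h h'

theorem bcRig_h265 (e : B₁ →ₐ[k] k) : BCRig k B₁ (B₀ := B₀) (B₀₁ := B₀₁) e :=
  fun _ _ _ _ _ _ _ _ _ hbc h => H265.rigidifiable_of_isBC hbc h

/-! ## Good predicates -/

section Good

variable (k B₀ B₁ B₀₁) in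
/-- A predicate on gluing data over all `k`-algebras. -/
abbrev GDPred : Type (u + 1) :=
  ∀ (A : Type u) [CommRing A] [Algebra k A], CurveGD k B₀ B₁ B₀₁ A → Prop

/-- `P` has a locus ideal on `G`. -/
def HasLocus (P : GDPred k B₀ B₁ B₀₁) {A : Type u} [CommRing A] [Algebra k A]
    (G : CurveGD k B₀ B₁ B₀₁ A) : Prop :=
  ∃ J : Ideal A, ∀ (A' : Type u) [CommRing A'] [Algebra k A'] (ψ : A →ₐ[k] A')
    (G' : CurveGD k B₀ B₁ B₀₁ A'), CurveGD.IsBC ψ G G' → (P A' G' ↔ J.map ψ.toRingHom = ⊤)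

/-- All field-valued fibres of `G` satisfy `P`. -/
def FibresSat (P : GDPred k B₀ B₁ B₀₁) {A : Type u} [CommRing A] [Algebra k A]
    (G : CurveGD k B₀ B₁ B₀₁ A) : Prop :=
  ∀ (K : Type u) [Field K] [Algebra k K] (ψ : A →ₐ[k] K) (GK : CurveGD k B₀ B₁ B₀₁ K),
    CurveGD.IsBC ψ G GK → P K GK

/-- The locus of field-valued fibres of `G` satisfying `P` is open. -/
def Spreads (P : GDPred k B₀ B₁ B₀₁) {A : Type u} [CommRing A] [Algebra k A]
    (G : CurveGD k B₀ B₁ B₀₁ A) : Prop :=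
  ∀ (K : Type u) [Field K] [Algebra k K] (ψ : A →ₐ[k] K) (GK : CurveGD k B₀ B₁ B₀₁ K),
    CurveGD.IsBC ψ G GK → P K GK →
    ∃ a : A, ψ a ≠ 0 ∧
      ∀ (L : Type u) [Field L] [Algebra k L] (θ : A →ₐ[k] L) (Gθ : CurveGD k B₀ B₁ B₀₁ L),
        CurveGD.IsBC θ G Gθ → θ a ≠ 0 → P L Gθ

/-- `P` is fibrewise and open on the data satisfying `C`. -/
structure Good (C P : GDPred k B₀ B₁ B₀₁) : Prop where
  fib : ∀ (A : Type u) [CommRing A] [Algebra k A] (G : CurveGD k B₀ B₁ B₀₁ A),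
    C A G → FibresSat P G → P A G
  spreads : ∀ (A : Type u) [CommRing A] [Algebra k A] (G : CurveGD k B₀ B₁ B₀₁ A),
    C A G → Spreads P G

theorem map_eq_top_of_ne_zero {A L : Type u} [CommRing A] [Field L] (θ : A →+* L) (J : Ideal A)
    {a : A} (ha : a ∈ J) (h : θ a ≠ 0) : J.map θ = ⊤ :=
  Ideal.eq_top_of_isUnit_mem _ (Ideal.mem_map_of_mem θ ha) (isUnit_iff_ne_zero.2 h)

theorem exists_mem_ne_zero_of_map_eq_top {A L : Type u} [CommRing A] [Field L] (θ : A →+* L)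
    (J : Ideal A) (h : J.map θ = ⊤) : ∃ a ∈ J, θ a ≠ 0 := by
  by_contra hne
  have hne : ∀ a ∈ J, θ a = 0 := fun a ha => by
    by_contra h0
    exact hne ⟨a, ha, h0⟩
  have hle : J.map θ ≤ ⊥ := by
    rw [Ideal.map_le_iff_le_comap]
    intro a ha
    rw [Ideal.mem_comap, Ideal.mem_bot]
    exact hne a ha
  rw [h] at hle
  exact (bot_ne_top (α := Ideal L)) (le_antisymm bot_le hle)

theorem HasLocus.of_fibresSat {P : GDPred k B₀ B₁ B₀₁} {A : Type u} [CommRing A] [Algebra k A]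
    {G : CurveGD k B₀ B₁ B₀₁ A} (h : HasLocus P G) (hf : FibresSat P G) : P A G := by
  obtain ⟨J, hJ⟩ := h
  have hJtop : J = ⊤ := by
    by_contra hne
    obtain ⟨m, hm, hle⟩ := Ideal.exists_le_maximal _ hne
    let _ : Field (A ⧸ m) := Ideal.Quotient.field m
    obtain ⟨GK, hGK⟩ := H265.curveGD_exists_isBC (Ideal.Quotient.mkₐ k m) G
    have h1 := (hJ (A ⧸ m) (Ideal.Quotient.mkₐ k m) GK hGK).1 (hf _ _ GK hGK)
    obtain ⟨a, ha, ha0⟩ := exists_mem_ne_zero_of_map_eq_top _ J h1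
    exact ha0 (Ideal.Quotient.eq_zero_iff_mem.2 (hle ha))
  refine (hJ A (AlgHom.id k A) G (H265.curveGD_isBC_id G)).2 ?_
  rw [hJtop]
  exact Ideal.map_top _

theorem HasLocus.spreads {P : GDPred k B₀ B₁ B₀₁} {A : Type u} [CommRing A] [Algebra k A]
    {G : CurveGD k B₀ B₁ B₀₁ A} (h : HasLocus P G) : Spreads P G := by
  obtain ⟨J, hJ⟩ := h
  intro K _ _ ψ GK hGK hP
  obtain ⟨a, ha, ha0⟩ := exists_mem_ne_zero_of_map_eq_top _ J ((hJ K ψ GK hGK).1 hP)
  exact ⟨a, ha0, fun L _ _ θ Gθ hGθ hθ =>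
    (hJ L θ Gθ hGθ).2 (map_eq_top_of_ne_zero _ J ha hθ)⟩

theorem good_of_hasLocus {C P : GDPred k B₀ B₁ B₀₁}
    (h : ∀ (A : Type u) [CommRing A] [Algebra k A] (G : CurveGD k B₀ B₁ B₀₁ A),
      C A G → HasLocus P G) : Good C P where
  fib := fun A _ _ G hC hf => (h A G hC).of_fibresSat hf
  spreads := fun A _ _ G hC => (h A G hC).spreads

/-- The inductive step: if `P` is good, `Q` implies `P`, and `Q` has a locus ideal on every
datum satisfying `C` and `P`, then `Q` is good. -/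
theorem Good.step {C P Q : GDPred k B₀ B₁ B₀₁} (hP : Good C P)
    (hCbc : ∀ (A A' : Type u) [CommRing A] [Algebra k A] [CommRing A'] [Algebra k A']
      (ψ : A →ₐ[k] A') (G : CurveGD k B₀ B₁ B₀₁ A) (G' : CurveGD k B₀ B₁ B₀₁ A'),
      CurveGD.IsBC ψ G G' → C A G → C A' G')
    (hQP : ∀ (A : Type u) [CommRing A] [Algebra k A] (G : CurveGD k B₀ B₁ B₀₁ A),
      Q A G → P A G)
    (hQ : ∀ (A : Type u) [CommRing A] [Algebra k A] (G : CurveGD k B₀ B₁ B₀₁ A),
      C A G → P A G → HasLocus Q G) : Good C Q where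
  fib := fun A _ _ G hC hf =>
    (hQ A G hC (hP.fib A G hC fun K _ _ ψ GK hGK => hQP K GK (hf K ψ GK hGK))).of_fibresSat hf
  spreads := by
    intro A _ _ G hC K _ _ ψ GK hGK hQK
    -- spread `P` first
    obtain ⟨a, ha, hPa⟩ := hP.spreads A G hC K ψ GK hGK (hQP K GK hQK)
    -- localise at `a`
    let ι : A →ₐ[k] Localization.Away a := IsScalarTower.toAlgHom k A (Localization.Away a)
    have hιa : IsUnit (ι a) := IsLocalization.Away.algebraMap_isUnit a
    obtain ⟨Ga, hGa⟩ := H265.curveGD_exists_isBC ι G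
    have hCa : C _ Ga := hCbc _ _ ι G Ga hGa hC
    -- all fibres of `Ga` satisfy `P`, hence `Ga` satisfies `P`
    have hPGa : P _ Ga := by
      refine hP.fib _ Ga hCa ?_
      intro L _ _ χ Gχ hGχ
      refine hPa L (χ.comp ι) Gχ (H265.curveGD_isBC_comp hGa hGχ) ?_
      exact (hιa.map χ).ne_zero
    obtain ⟨J, hJ⟩ := hQ _ Ga hCa hPGa
    -- lifting a field point through the localisation
    have lift : ∀ (L : Type u) [Field L] [Algebra k L] (θ : A →ₐ[k] L)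
        (Gθ : CurveGD k B₀ B₁ B₀₁ L), CurveGD.IsBC θ G Gθ → θ a ≠ 0 →
        ∃ θa : Localization.Away a →ₐ[k] L, θa.comp ι = θ ∧ CurveGD.IsBC θa Ga Gθ := by
      intro L _ _ θ Gθ hGθ hθ
      have hu : ∀ y : Submonoid.powers a, IsUnit (θ y) := by
        rintro ⟨_, n, rfl⟩
        rw [map_pow]
        exact (isUnit_iff_ne_zero.2 hθ).pow n
      refine ⟨IsLocalization.liftAlgHom (M := Submonoid.powers a) (f := θ) hu, ?_, ?_⟩
      · ext b
        simp [ι]
      · refine H265.curveGD_isBC_of_comp_eq ?_ hGa hGθ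
        ext b
        simp [ι]
    obtain ⟨ψa, hψa, hGKa⟩ := lift K ψ GK hGK ha
    obtain ⟨b', hb'J, hb'0⟩ :=
      exists_mem_ne_zero_of_map_eq_top _ J ((hJ K ψa GK hGKa).1 hQK)
    obtain ⟨⟨b, s⟩, hbs⟩ := IsLocalization.surj (Submonoid.powers a) b'
    have hbs' : b' * ι (s : A) = ι b := hbs
    have hψb : ψ b ≠ 0 := by
      have h1 : ψ b = ψa b' * ψa (ι (s : A)) := by
        rw [← map_mul, hbs', ← AlgHom.comp_apply, hψa]
      rw [h1]
      refine mul_ne_zero hb'0 ?_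
      rw [← AlgHom.comp_apply, hψa]
      obtain ⟨_, n, rfl⟩ := s
      simp only [map_pow]
      exact pow_ne_zero n ha
    refine ⟨a * b, by rw [map_mul]; exact mul_ne_zero ha hψb, ?_⟩
    intro L _ _ θ Gθ hGθ hθ
    rw [map_mul] at hθ
    have hθa : θ a ≠ 0 := left_ne_zero_of_mul hθ
    have hθb : θ b ≠ 0 := right_ne_zero_of_mul hθ
    obtain ⟨θa, hθa', hGθa⟩ := lift L θ Gθ hGθ hθa
    refine (hJ L θa Gθ hGθa).2 (map_eq_top_of_ne_zero _ J hb'J ?_)
    intro h0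
    apply hθb
    have h0' : θa b' = 0 := h0
    have h1 : θ b = θa b' * θa (ι (s : A)) := by
      rw [← map_mul, hbs', ← AlgHom.comp_apply, hθa']
    rw [h1, h0', zero_mul]

end Good

/-! ## The chart conditions are good -/

section Chart

variable {x : B₀} {y : B₁} {e : B₁ →ₐ[k] k}

theorem p3_of_pointCond {i : ChartIndex k B₀} {A : Type u} [CommRing A] [Algebra k A]
    {G : CurveGD k B₀ B₁ B₀₁ A} {φ₀ : H491.Rβ k i.β →ₐ[k] A} (h : PointCond x y i G φ₀) :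
    P3 x y i.n i.q i.β G := by
  obtain ⟨s, hs, hspan⟩ := h.sect
  exact ⟨h.p1, s, hs, _, (H491.isChart_univIdeal (k := k) i.β).map φ₀, hspan⟩

theorem p2_of_p3 {n m g : ℕ} {q : Fin m → (B₀ →ₐ[k] k)} {β : Fin g → B₀} {A : Type u}
    [CommRing A] [Algebra k A] {G : CurveGD k B₀ B₁ B₀₁ A} (h : P3 x y n q β G) :
    P2 x y n q G := by
  obtain ⟨h1, s, hs, -⟩ := h
  exact ⟨h1, s, hs⟩

/-- The condition `C`: rigidifiable and of degree zero. -/
abbrev rigDeg0 (e : B₁ →ₐ[k] k) : GDPred k B₀ B₁ B₀₁ :=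
  fun _ _ _ G => G.Rigidifiable e ∧ G.Deg0

theorem rigDeg0_bc (A A' : Type u) [CommRing A] [Algebra k A] [CommRing A'] [Algebra k A']
    (ψ : A →ₐ[k] A') (G : CurveGD k B₀ B₁ B₀₁ A) (G' : CurveGD k B₀ B₁ B₀₁ A')
    (h : CurveGD.IsBC ψ G G') (hC : rigDeg0 e A G) : rigDeg0 e A' G' :=
  ⟨H265.rigidifiable_of_isBC h hC.1, H265.deg0_of_isBC h hC.2⟩

variable (hS0 : Leaf.Stage0 k B₀ B₁ B₀₁) (hS1 : Leaf.Stage1 k B₀ B₁ B₀₁)
  (hS2 : Leaf.Stage2 k B₀ B₁ B₀₁) (hS3 : Leaf.Stage3 k B₀ B₁ B₀₁)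
  (hS4 : Leaf.Stage4 k B₀ B₁ B₀₁) (hBC : Leaf.PointBC k B₀ B₁ B₀₁)
  (hUniq : Leaf.PointUnique k B₀ B₁ B₀₁) (hIso : Leaf.PointIso k B₀ B₁ B₀₁)
  (hCover : Leaf.Cover k B₀ B₁ B₀₁)
  (hC : IsCurveChart k B₀ B₁ B₀₁ x y e)

include hS0 hS1 hS2 hS3 hS4 hC in
/-- Membership in a chart is fibrewise and open. -/
theorem good_p4 (i : ChartIndex k B₀) (hnum : i.Numeric B₀₁ y) :
    Good (rigDeg0 e) (fun _ _ _ G => P4 x y i G : GDPred k B₀ B₁ B₀₁) := by
  have g0 : Good (rigDeg0 e) (fun A _ _ G => P0 x i.n G : GDPred k B₀ B₁ B₀₁) :=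
    good_of_hasLocus fun A _ _ G _ => hS0 x y e hC i.n A G
  have g1 : Good (rigDeg0 e) (fun A _ _ G => P1 x i.n i.q G : GDPred k B₀ B₁ B₀₁) :=
    g0.step rigDeg0_bc (fun A _ _ G h => h.1) fun A _ _ G _ h0 => hS1 x y e hC i.n i.q A G h0
  have g2 : Good (rigDeg0 e) (fun A _ _ G => P2 x y i.n i.q G : GDPred k B₀ B₁ B₀₁) :=
    g1.step rigDeg0_bc (fun A _ _ G h => h.1)
      fun A _ _ G hCG h1 => hS2 x y e hC i hnum A G hCG.1 hCG.2 h1
  have g3 : Good (rigDeg0 e) (fun A _ _ G => P3 x y i.n i.q i.β G : GDPred k B₀ B₁ B₀₁) :=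
    g2.step rigDeg0_bc (fun A _ _ G h => p2_of_p3 h)
      fun A _ _ G hCG h2 => hS3 x y e hC i hnum A G hCG.1 hCG.2 h2
  exact g3.step rigDeg0_bc (fun A _ _ G h => by obtain ⟨φ₀, hφ₀⟩ := h; exact p3_of_pointCond hφ₀)
    fun A _ _ G hCG h3 => hS4 x y e hC i hnum A G hCG.1 hCG.2 h3

/-- A chart: a numeric index over whose coordinate ring the universal point exists. -/
abbrev ChartIdx (B₀₁ : Type u) [CommRing B₀₁] [Algebra k B₀₁] [Algebra B₀ B₀₁]
    [Algebra B₁ B₀₁] [IsScalarTower k B₀ B₀₁] [IsScalarTower k B₁ B₀₁] (x : B₀) (y : B₁)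
    (e : B₁ →ₐ[k] k) : Type u :=
  {i : ChartIndex k B₀ // i.Numeric B₀₁ y ∧ i.Good (B₀₁ := B₀₁) x y e}

/-- The universal datum of a chart. -/
noncomputable def univDatum (i : ChartIdx B₀₁ x y e) : CurveGD k B₀ B₁ B₀₁ (chartRing i.1) :=
  Classical.choose i.2.2

theorem univDatum_rig (i : ChartIdx B₀₁ x y e) : (univDatum i).Rigidifiable e :=
  (Classical.choose_spec i.2.2).1

theorem univDatum_deg0 (i : ChartIdx B₀₁ x y e) : (univDatum i).Deg0 :=
  (Classical.choose_spec i.2.2).2.1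

theorem univDatum_pointCond (i : ChartIdx B₀₁ x y e) :
    PointCond x y i.1 (univDatum i) (chartCan i.1) :=
  (Classical.choose_spec i.2.2).2.2

include hBC hC in
theorem p4_of_inChart (i : ChartIdx B₀₁ x y e) {A : Type u} [CommRing A] [Algebra k A]
    {G : CurveGD k B₀ B₁ B₀₁ A} (h : InChart (univDatum i) G) : P4 x y i.1 G := by
  obtain ⟨φ, hφ⟩ := h
  exact ⟨φ.comp (chartCan i.1), hBC x y e hC i.1 i.2.1 _ A (univDatum i) G φ hφ
    (univDatum_rig i) (univDatum_deg0 i) _ (univDatum_pointCond i)⟩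

include hBC hIso hC in
theorem inChart_of_p4 (i : ChartIdx B₀₁ x y e) {A : Type u} [CommRing A] [Algebra k A]
    {G : CurveGD k B₀ B₁ B₀₁ A} (h : P4 x y i.1 G) : InChart (univDatum i) G := by
  obtain ⟨φ₀, hφ₀⟩ := h
  have hu : ∀ z : Submonoid.powers i.1.f, IsUnit (φ₀ z) := by
    rintro ⟨_, n, rfl⟩
    rw [map_pow]
    exact hφ₀.unit.pow n
  let φ : chartRing i.1 →ₐ[k] A :=
    IsLocalization.liftAlgHom (M := Submonoid.powers i.1.f) (f := φ₀) hu
  have hφ : φ.comp (chartCan i.1) = φ₀ := by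
    ext b
    simp [φ, chartCan]
  obtain ⟨G', hG'⟩ := H265.curveGD_exists_isBC φ (univDatum i)
  have h1 : PointCond x y i.1 G' (φ.comp (chartCan i.1)) :=
    hBC x y e hC i.1 i.2.1 _ A (univDatum i) G' φ hG' (univDatum_rig i) (univDatum_deg0 i) _
      (univDatum_pointCond i)
  rw [hφ] at h1
  exact ⟨φ, H265.curveGD_isBC_of_isIso_right hG' (hIso x y e hC i.1 A G' G φ₀ h1 hφ₀)⟩

include hS0 hS1 hS2 hS3 hS4 hBC hUniq hIso hCover hC in
/-- The chart atlas built from helper11's leaves. -/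
theorem nonempty_chartAtlas_of_acLeaves [Algebra.FiniteType k B₀] :
    Nonempty (ChartAtlas k B₀ B₁ B₀₁ e) := by
  refine ⟨{
    ι := ChartIdx B₀₁ x y e
    R := fun i => chartRing i.1
    finiteType := fun i => ?_
    datum := fun i => univDatum i
    rig := univDatum_rig
    deg0 := univDatum_deg0
    inj := ?_
    fib := ?_
    spread := ?_
    cover := ?_ }⟩
  · have : Algebra.FiniteType k (H491.Rβ k i.1.β) := H491.finiteType_Rβ
    exact Algebra.FiniteType.trans ‹_›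
      (IsLocalization.finiteType_of_monoid_fg (Submonoid.powers i.1.f) _)
  · intro i A _ _ φ ψ G G' hφ hψ hiso
    have h1 : PointCond x y i.1 G' (φ.comp (chartCan i.1)) :=
      hBC x y e hC i.1 i.2.1 _ A (univDatum i) G' φ (H265.curveGD_isBC_of_isIso_right hφ hiso)
        (univDatum_rig i) (univDatum_deg0 i) _ (univDatum_pointCond i)
    have h2 : PointCond x y i.1 G' (ψ.comp (chartCan i.1)) :=
      hBC x y e hC i.1 i.2.1 _ A (univDatum i) G' ψ hψ (univDatum_rig i) (univDatum_deg0 i) _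
        (univDatum_pointCond i)
    have h3 := hUniq x y e hC i.1 A G' _ _ h1 h2
    exact IsLocalization.algHom_ext (Submonoid.powers i.1.f) h3
  · intro i A _ _ G hG hG0 hfib
    refine inChart_of_p4 hBC hIso hC i ?_
    exact (good_p4 hS0 hS1 hS2 hS3 hS4 hC i.1 i.2.1).fib A G ⟨hG, hG0⟩
      fun K _ _ ψ GK hGK => p4_of_inChart hBC hC i (hfib K ψ GK hGK)
  · intro i A _ _ G hG hG0 K _ _ ψ GK hGK hin
    obtain ⟨a, ha, hgood⟩ := (good_p4 hS0 hS1 hS2 hS3 hS4 hC i.1 i.2.1).spreads A G ⟨hG, hG0⟩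
      K ψ GK hGK (p4_of_inChart hBC hC i hin)
    exact ⟨a, ha, fun L _ _ θ Gθ hGθ hθ => inChart_of_p4 hBC hIso hC i (hgood L θ Gθ hGθ hθ)⟩
  · intro K _ _ _ G hG hdeg
    obtain ⟨i, hnum, D, hDr, hD0, hDp, φ, hφ⟩ := hCover x y e hC K G hG hdeg
    let j : ChartIdx B₀₁ x y e := ⟨i, hnum, D, hDr, hD0, hDp⟩
    refine ⟨j, φ, ?_⟩
    exact H265.curveGD_isBC_of_isIso_left
      (hIso x y e hC i _ D (univDatum j) _ hDp (univDatum_pointCond j)) hφ

end Chart

/-- **ALGCHARTS from helper11's leaves.** -/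
theorem algCharts_of_acLeaves
    (hS0 : Leaf.Stage0 k B₀ B₁ B₀₁) (hS1 : Leaf.Stage1 k B₀ B₁ B₀₁)
    (hS2 : Leaf.Stage2 k B₀ B₁ B₀₁) (hS3 : Leaf.Stage3 k B₀ B₁ B₀₁)
    (hS4 : Leaf.Stage4 k B₀ B₁ B₀₁) (hBC : Leaf.PointBC k B₀ B₁ B₀₁)
    (hUniq : Leaf.PointUnique k B₀ B₁ B₀₁) (hIso : Leaf.PointIso k B₀ B₁ B₀₁)
    (hCover : Leaf.Cover k B₀ B₁ B₀₁) : Stmt.AlgCharts k B₀ B₁ B₀₁ := by
  refine algCharts_of_atlas bcExists_h265 bcComp_h265 bcRig_h265 ?_
  intro x y e hC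
  have : Algebra.FiniteType k B₀ := by
    have h1 : (Polynomial.aeval x : Polynomial k →ₐ[k] B₀).toRingHom.FiniteType :=
      RingHom.FiniteType.of_finite hC.finite₀
    have h2 : (algebraMap k (Polynomial k)).FiniteType :=
      (RingHom.finiteType_algebraMap (A := k) (B := Polynomial k)).2 inferInstance
    have h3 := h1.comp h2
    have h4 : (Polynomial.aeval x : Polynomial k →ₐ[k] B₀).toRingHom.comp
        (algebraMap k (Polynomial k)) = algebraMap k B₀ := by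
      ext a; simp
    rw [h4] at h3
    exact (RingHom.finiteType_algebraMap (A := k) (B := B₀)).1 h3
  exact nonempty_chartAtlas_of_acLeaves hS0 hS1 hS2 hS3 hS4 hBC hUniq hIso hCover hC

end Fermat.Agent.S25.H926
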