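import Fermat.Agent.S25.H926.AlgChartsLeaves

/-!
# Row S25, block ALGCHARTS: assembly (helper926)

`Stmt.AlgCharts` from the leaves `Leaf.Adm`, `Leaf.Rep`, `Leaf.Univ`, `Leaf.Inj`, `Leaf.Fib`,
`Leaf.Spread`, `Leaf.Cover` and the three GDC facts `BCExists`, `BCComp`, `BCRig`.
-/

set_option autoImplicit false
universe u
open scoped TensorProduct

namespace Fermat.Agent.S25.H926

open Fermat.Agent.S25

variable {k : Type u} [Field k] {B₀ B₁ B₀₁ : Type u} [CommRing B₀] [CommRing B₁] [CommRing B₀₁]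
  [Algebra k B₀] [Algebra k B₁] [Algebra k B₀₁] [Algebra B₀ B₀₁] [Algebra B₁ B₀₁]
  [IsScalarTower k B₀ B₀₁] [IsScalarTower k B₁ B₀₁]

/-- `IsSection` is invariant under isomorphisms of gluing data. -/
theorem IsSection.of_iso {x : B₀} {A : Type u} [CommRing A] [Algebra k A]
    {G G' : CurveGD k B₀ B₁ B₀₁ A} (E : GlueDatum.Iso G G') {n : ℕ} {s₀ : G.N₀} {s₁ : G.N₁}
    (h : IsSection x G n s₀ s₁) : IsSection x G' n (E.e₀ s₀) (E.e₁ s₁) := by
  unfold IsSection at h ⊢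
  rw [← E.comm₀, h, map_smul, E.comm₁]

theorem span_singleton_map_eq_smul_top {R : Type*} [CommRing R] {M M' : Type*} [AddCommGroup M]
    [Module R M] [AddCommGroup M'] [Module R M'] (e : M ≃ₗ[R] M') (I : Ideal R) (s : M)
    (h : Submodule.span R {s} = I • (⊤ : Submodule R M)) :
    Submodule.span R {e s} = I • (⊤ : Submodule R M') := by
  have h1 : Submodule.map e.toLinearMap (Submodule.span R {s}) = Submodule.span R {e s} := by
    rw [Submodule.map_span, Set.image_singleton]; rfl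
  rw [← h1, h, Submodule.map_smul'', Submodule.map_top, LinearEquiv.range]

/-- `HasDivTw` is invariant under isomorphisms of gluing data. -/
theorem HasDivTw.of_isIso {x : B₀} {A : Type u} [CommRing A] [Algebra k A]
    {G G' : CurveGD k B₀ B₁ B₀₁ A} (hiso : G.IsIso G') {n : ℕ} {I : Ideal (A ⊗[k] B₀)}
    (h : HasDivTw x G n I) : HasDivTw x G' n I := by
  obtain ⟨E⟩ := hiso
  obtain ⟨s₀, s₁, hs, h₀, h₁⟩ := h
  exact ⟨E.e₀ s₀, E.e₁ s₁, hs.of_iso E, span_singleton_map_eq_smul_top E.e₀ I s₀ h₀,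
    span_singleton_map_eq_smul_top E.e₁ _ s₁ h₁⟩

theorem chartIdeal_eq_baseIdeal {m N : ℕ} (q : Fin m → (B₀ →ₐ[k] k)) (β : Fin N → B₀)
    (f : H251.RepAlg k B₀ β) {A : Type u} [CommRing A] [Algebra k A]
    (φ : chartRing q β f →ₐ[k] A) :
    chartIdeal q β f φ = H251.baseIdeal φ (chartIdeal q β f (AlgHom.id k _)) := by
  unfold chartIdeal
  rw [AlgHom.id_comp]
  exact H251.chartRepEquiv_comp φ (toChartRing q β f)

theorem isChartIdeal_chartIdeal {m N : ℕ} (q : Fin m → (B₀ →ₐ[k] k)) (β : Fin N → B₀)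
    (f : H251.RepAlg k B₀ β) {A : Type u} [CommRing A] [Algebra k A]
    (φ : chartRing q β f →ₐ[k] A) : H251.IsChartIdeal k β A (chartIdeal q β f φ) :=
  (H251.chartRepEquiv k β A (φ.comp (toChartRing q β f))).2

omit [Algebra k B₀₁] [IsScalarTower k B₀ B₀₁] [IsScalarTower k B₁ B₀₁] in
theorem finiteType_of_isCurveChart {x : B₀} {y : B₁} {e : B₁ →ₐ[k] k}
    (hC : IsCurveChart k B₀ B₁ B₀₁ x y e) : Algebra.FiniteType k B₀ := by
  have h1 : (Polynomial.aeval x : Polynomial k →ₐ[k] B₀).toRingHom.FiniteType :=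
    RingHom.FiniteType.of_finite hC.finite₀
  have h2 : (algebraMap k (Polynomial k)).FiniteType :=
    (RingHom.finiteType_algebraMap (A := k) (B := Polynomial k)).2 inferInstance
  have h3 := h1.comp h2
  have h4 : (Polynomial.aeval x : Polynomial k →ₐ[k] B₀).toRingHom.comp
      (algebraMap k (Polynomial k)) = algebraMap k B₀ := by
    ext a; simp
  rw [h4] at h3
  exact (RingHom.finiteType_algebraMap (A := k) (B := B₀)).1 h3

section Atlas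

variable (hRep : Leaf.Rep k B₀) (hUniv : Leaf.Univ k B₀ B₁ B₀₁)
  (hInj : Leaf.Inj k B₀ B₁ B₀₁) (hFib : Leaf.Fib k B₀ B₁ B₀₁)
  (hSpread : Leaf.Spread k B₀ B₁ B₀₁) (hCover : Leaf.Cover k B₀ B₁ B₀₁)
  {x : B₀} {y : B₁} {e : B₁ →ₐ[k] k} (hC : IsCurveChart k B₀ B₁ B₀₁ x y e)
  {n m : ℕ} (hadm : Admissible (k := k) (B₀₁ := B₀₁) x y n m)

/-- The index type of the atlas: points `q`, a Hilbert chart `β`, a non-special `f`. -/
abbrev AtlasIndex (B₁ B₀₁ : Type u) [CommRing B₁] [CommRing B₀₁] [Algebra k B₁] [Algebra k B₀₁]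
    [Algebra B₀ B₀₁] [Algebra B₁ B₀₁] [IsScalarTower k B₀ B₀₁] [IsScalarTower k B₁ B₀₁]
    (x : B₀) (n m N : ℕ) : Type u :=
  Σ (q : Fin m → (B₀ →ₐ[k] k)) (β : Fin N → B₀), {f : H251.RepAlg k B₀ β // IsNS B₁ B₀₁ x n q β f}

include hUniv hC in
theorem exists_univ (i : AtlasIndex B₁ B₀₁ x n m (n * chartDegree k y)) :
    ∃ D : CurveGD k B₀ B₁ B₀₁ (chartRing i.1 i.2.1 i.2.2.1), D.Rigidifiable e ∧ D.Deg0 ∧
      ∀ (A : Type u) [CommRing A] [Algebra k A] (φ : chartRing i.1 i.2.1 i.2.2.1 →ₐ[k] A)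
        (G : CurveGD k B₀ B₁ B₀₁ A),
        CurveGD.IsBC φ D G ↔ HasDivTw x G n (chartIdeal i.1 i.2.1 i.2.2.1 φ) := by
  obtain ⟨D, h1, h2, h3⟩ := hUniv x y e hC n (chartRing i.1 i.2.1 i.2.2.1) i.2.1
    (chartIdeal i.1 i.2.1 i.2.2.1 (AlgHom.id k _)) (isChartIdeal_chartIdeal _ _ _ _)
  refine ⟨D, h1, h2, fun A _ _ φ G => ?_⟩
  rw [h3 A φ G, ← chartIdeal_eq_baseIdeal]

include hRep hUniv hC in
theorem inChart_iff_eChart (i : AtlasIndex B₁ B₀₁ x n m (n * chartDegree k y))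
    {A : Type u} [CommRing A] [Algebra k A] (G : CurveGD k B₀ B₁ B₀₁ A) :
    InChart (Classical.choose (exists_univ hUniv hC i)) G ↔
      EChart B₁ B₀₁ x n i.1 i.2.1 i.2.2.1 G := by
  obtain ⟨-, -, hD⟩ := Classical.choose_spec (exists_univ hUniv hC i)
  obtain ⟨-, hR⟩ := hRep (finiteType_of_isCurveChart hC) i.1 i.2.1 i.2.2.1
  obtain ⟨-, hR2⟩ := hR A
  constructor
  · rintro ⟨φ, hφ⟩
    obtain ⟨hI, h1, h2⟩ := (hR2 _).1 ⟨φ, rfl⟩
    exact ⟨_, hI, h1, h2, (hD A φ G).1 hφ⟩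
  · rintro ⟨I, hI, h1, h2, h3⟩
    obtain ⟨φ, rfl⟩ := (hR2 I).2 ⟨hI, h1, h2⟩
    exact ⟨φ, (hD A φ G).2 h3⟩

include hRep hUniv hInj hFib hSpread hCover hC hadm in
/-- The chart atlas built from the leaves. -/
theorem nonempty_chartAtlas : Nonempty (ChartAtlas k B₀ B₁ B₀₁ e) := by
  have hft := finiteType_of_isCurveChart hC
  refine ⟨{
    ι := AtlasIndex B₁ B₀₁ x n m (n * chartDegree k y)
    R := fun i => chartRing i.1 i.2.1 i.2.2.1
    finiteType := fun i => (hRep hft i.1 i.2.1 i.2.2.1).1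
    datum := fun i => Classical.choose (exists_univ hUniv hC i)
    rig := fun i => (Classical.choose_spec (exists_univ hUniv hC i)).1
    deg0 := fun i => (Classical.choose_spec (exists_univ hUniv hC i)).2.1
    inj := ?_
    fib := ?_
    spread := ?_
    cover := ?_ }⟩
  · intro i A _ _ φ ψ G G' hφ hψ hiso
    obtain ⟨-, -, hD⟩ := Classical.choose_spec (exists_univ hUniv hC i)
    obtain ⟨-, hR⟩ := hRep hft i.1 i.2.1 i.2.2.1
    obtain ⟨hR1, hR2⟩ := hR A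
    have h1 : HasDivTw x G' n (chartIdeal i.1 i.2.1 i.2.2.1 φ) :=
      ((hD A φ G).1 hφ).of_isIso hiso
    have h2 : HasDivTw x G' n (chartIdeal i.1 i.2.1 i.2.2.1 ψ) := (hD A ψ G').1 hψ
    obtain ⟨hI, a1, a2⟩ := (hR2 _).1 ⟨φ, rfl⟩
    obtain ⟨hI', b1, b2⟩ := (hR2 _).1 ⟨ψ, rfl⟩
    exact hR1 φ ψ (hInj x y e hC n m hadm i.1 i.2.1 i.2.2.1 i.2.2.2 A G' _ _ hI hI' a1 b1 a2 b2
      h1 h2)
  · intro i A _ _ G hG hG0 hfib
    rw [inChart_iff_eChart hRep hUniv hC]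
    refine hFib x y e hC n m hadm i.1 i.2.1 i.2.2.1 i.2.2.2 A G hG hG0 ?_
    intro K _ _ ψ GK hGK
    rw [← inChart_iff_eChart hRep hUniv hC]
    exact hfib K ψ GK hGK
  · intro i A _ _ G hG hG0 K _ _ ψ GK hGK hin
    rw [inChart_iff_eChart hRep hUniv hC] at hin
    obtain ⟨a, ha, hgood⟩ :=
      hSpread x y e hC n m hadm i.1 i.2.1 i.2.2.1 i.2.2.2 A G hG hG0 K ψ GK hGK hin
    refine ⟨a, ha, fun L _ _ θ Gθ hGθ hθ => ?_⟩
    rw [inChart_iff_eChart hRep hUniv hC]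
    exact hgood L θ Gθ hGθ hθ
  · intro K _ _ _ G hG hdeg
    obtain ⟨q, β, f, hf, hE⟩ := hCover x y e hC n m hadm K G hG hdeg
    refine ⟨⟨q, β, f, hf⟩, ?_⟩
    rw [inChart_iff_eChart hRep hUniv hC]
    exact hE

end Atlas

/-- **ALGCHARTS from the leaves.** -/
theorem algCharts_of_leaves (hEx : BCExists k B₀ B₁ B₀₁) (hComp : BCComp k B₀ B₁ B₀₁)
    (hRig : ∀ e : B₁ →ₐ[k] k, BCRig k B₁ (B₀ := B₀) (B₀₁ := B₀₁) e)
    (hAdm : Leaf.Adm k B₀ B₁ B₀₁) (hRep : Leaf.Rep k B₀) (hUniv : Leaf.Univ k B₀ B₁ B₀₁)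
    (hInj : Leaf.Inj k B₀ B₁ B₀₁) (hFib : Leaf.Fib k B₀ B₁ B₀₁)
    (hSpread : Leaf.Spread k B₀ B₁ B₀₁) (hCover : Leaf.Cover k B₀ B₁ B₀₁) :
    Stmt.AlgCharts k B₀ B₁ B₀₁ := by
  refine algCharts_of_atlas hEx hComp hRig ?_
  intro x y e hC
  obtain ⟨n, m, hadm⟩ := hAdm x y e hC
  exact nonempty_chartAtlas hRep hUniv hInj hFib hSpread hCover hC hadm

end Fermat.Agent.S25.H926
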