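import Fermat.Agent.S25.DefsAlg
import Fermat.Agent.S25.H251.ChartIdeal

/-!
# Row S25, block ALGCHARTS: definitions (helper926) — FROZEN once on main

Notation: `(B₀, B₁, B₀₁, x, y, e)` a curve chart over `k`; for a `k`-algebra `A`,
`R₀ = A ⊗ B₀`, `R₁ = A ⊗ B₁`, `R₀₁ = A ⊗ B₀₁`; `G = (N₀, N₁, N₀₁, r₀, r₁)` a `CurveGD` over `A`.

* `xElt x A`            : the element `1 ⊗ x` of `R₀₁`.
* `IsSection x G n s₀ s₁`: `(s₀, s₁)` is a global section of the twist `G(n) = G ⊗ O(n E₀)`,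
                           i.e. `r₀ s₀ = x ^ n • r₁ s₁` in `N₀₁`  (no twisted datum is built).
* `H1Vanish x G n`      : `H¹(G(n)) = 0`.
* `pointIdeal q A`      : the kernel of the `A`-point `A ⊗ B₀ → A` of `U₀ = Spec B₀` given by
                           the `k`-point `q : B₀ →ₐ[k] k`.
* `NonSpecial x G n q`  : evaluation at the points `q₁ … q_m` is onto on `H⁰(G(n))`.
* `contr I`             : the contraction to `R₁` of the extension to `R₀₁` of `I ⊂ R₀`.
* `HasDivTw x G n I`    : `G(n)` has a global section whose divisor is `(I, contr I)`,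
                           i.e. `G(n) ≅ O(D)`, `D ⊂ U₀ × Spec A` the divisor with ideal `I`.
* `genus`, `chartDegree`, `Admissible x y n m`.
* `EChart x n q β f G`  : `G ≅ O(D)(-n)` for a (unique) `D` in the Hilbert chart `β`, passing
                           through the points `q`, on which `f` is invertible.
* `IsNS x n q β f`      : `D(f)` lies in the non-special locus.
* `chartRing q β f`, `toChartRing`, `chartIdeal`: the ring of the chart and its functor of
  points.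
-/

set_option autoImplicit false
universe u
open scoped TensorProduct

namespace Fermat.Agent.S25.H926

open Fermat.Agent.S25

noncomputable section

variable {k : Type u} [Field k] {B₀ B₁ B₀₁ : Type u} [CommRing B₀] [CommRing B₁] [CommRing B₀₁]
  [Algebra k B₀] [Algebra k B₁] [Algebra k B₀₁] [Algebra B₀ B₀₁] [Algebra B₁ B₀₁]
  [IsScalarTower k B₀ B₀₁] [IsScalarTower k B₁ B₀₁]

section Sections

variable (x : B₀) {A : Type u} [CommRing A] [Algebra k A]

variable (k B₀₁) in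
/-- The element `1 ⊗ x` of `A ⊗ B₀₁`. -/
def xElt (A : Type u) [CommRing A] [Algebra k A] : A ⊗[k] B₀₁ :=
  (1 : A) ⊗ₜ[k] algebraMap B₀ B₀₁ x

/-- `(s₀, s₁)` is a global section of the twist `G(n)`: `r₀ s₀ = x ^ n • r₁ s₁`. -/
def IsSection (G : CurveGD k B₀ B₁ B₀₁ A) (n : ℕ) (s₀ : G.N₀) (s₁ : G.N₁) : Prop :=
  G.r₀ s₀ = (xElt k B₀₁ x A ^ n) • G.r₁ s₁

/-- `H¹(G(n)) = 0`: the twisted Čech differential `(a, b) ↦ r₀ a - x ^ n • r₁ b` is onto. -/
def H1Vanish (G : CurveGD k B₀ B₁ B₀₁ A) (n : ℕ) : Prop :=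
  ∀ z : G.N₀₁, ∃ (a : G.N₀) (b : G.N₁), z = G.r₀ a - (xElt k B₀₁ x A ^ n) • G.r₁ b

end Sections

/-- The kernel of the `A`-point `A ⊗ B₀ → A` attached to a `k`-point `q` of `Spec B₀`. -/
def pointIdeal (q : B₀ →ₐ[k] k) (A : Type u) [CommRing A] [Algebra k A] : Ideal (A ⊗[k] B₀) :=
  RingHom.ker (epsHom q A).toRingHom

section Conditions

variable (x : B₀) {A : Type u} [CommRing A] [Algebra k A]

/-- Evaluation at the points `q j` is surjective on the global sections of `G(n)`: every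
family of values `t j ∈ N₀ / 𝔮ⱼ N₀` is attained by a global section. -/
def NonSpecial (G : CurveGD k B₀ B₁ B₀₁ A) (n : ℕ) {m : ℕ} (q : Fin m → (B₀ →ₐ[k] k)) : Prop :=
  ∀ t : Fin m → G.N₀, ∃ (s₀ : G.N₀) (s₁ : G.N₁), IsSection x G n s₀ s₁ ∧
    ∀ j, s₀ - t j ∈ pointIdeal (q j) A • (⊤ : Submodule (A ⊗[k] B₀) G.N₀)

variable (B₁ B₀₁) in
/-- Contraction to `A ⊗ B₁` of the extension to `A ⊗ B₀₁` of an ideal of `A ⊗ B₀`. -/
def contr (I : Ideal (A ⊗[k] B₀)) : Ideal (A ⊗[k] B₁) :=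
  (I.map (algebraMap (A ⊗[k] B₀) (A ⊗[k] B₀₁))).comap (algebraMap (A ⊗[k] B₁) (A ⊗[k] B₀₁))

/-- `G(n)` has a global section with divisor `(I, contr I)`. -/
def HasDivTw (G : CurveGD k B₀ B₁ B₀₁ A) (n : ℕ) (I : Ideal (A ⊗[k] B₀)) : Prop :=
  ∃ (s₀ : G.N₀) (s₁ : G.N₁), IsSection x G n s₀ s₁ ∧
    Submodule.span (A ⊗[k] B₀) {s₀} = I • (⊤ : Submodule (A ⊗[k] B₀) G.N₀) ∧
    Submodule.span (A ⊗[k] B₁) {s₁} = contr B₁ B₀₁ I • (⊤ : Submodule (A ⊗[k] B₁) G.N₁)

end Conditions

section Numbers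

variable (k B₀ B₁ B₀₁) in
/-- The genus: `dim_k H¹` of the unit gluing datum over `k`. -/
def genus : ℕ :=
  Module.finrank k (GlueDatum.unit k (k ⊗[k] B₀) (k ⊗[k] B₁) (k ⊗[k] B₀₁)).H1

variable (k) in
/-- The degree of the divisor `E₀ = (y)` on `Spec B₁`. -/
def chartDegree (y : B₁) : ℕ := Module.finrank k (B₁ ⧸ Ideal.span {y})

/-- `n` is a large enough twist and `m = n·d - g` the number of auxiliary points. -/
structure Admissible (x : B₀) (y : B₁) (n m : ℕ) : Prop where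
  one_le : 1 ≤ n
  count : m + genus k B₀ B₁ B₀₁ = n * chartDegree k y
  vanish_pred : ∀ (K : Type u) [Field K] [Algebra k K] (G : CurveGD k B₀ B₁ B₀₁ K),
    G.degree = 0 → H1Vanish x G (n - 1)
  vanish : ∀ (K : Type u) [Field K] [Algebra k K] (G : CurveGD k B₀ B₁ B₀₁ K),
    G.degree = 0 → H1Vanish x G n

end Numbers

section Charts

variable (x : B₀) (n : ℕ) {m N : ℕ} (q : Fin m → (B₀ →ₐ[k] k)) (β : Fin N → B₀)
  (f : H251.RepAlg k B₀ β)

variable (B₁ B₀₁) in
/-- The explicit chart condition: `G(n)` has a section whose divisor `I` lies in the Hilbert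
chart `β`, passes through the points `q`, and `f` is invertible at `I`. -/
def EChart {A : Type u} [CommRing A] [Algebra k A] (G : CurveGD k B₀ B₁ B₀₁ A) : Prop :=
  ∃ (I : Ideal (A ⊗[k] B₀)) (hI : H251.IsChartIdeal k β A I),
    (∀ j, I ≤ pointIdeal (q j) A) ∧
      IsUnit ((H251.chartRepEquiv k β A).symm ⟨I, hI⟩ f) ∧ HasDivTw x G n I

variable (B₁ B₀₁) in
/-- `D(f)` lies in the non-special locus of the chart `(q, β)`. -/
def IsNS : Prop :=
  ∀ (K : Type u) [Field K] [Algebra k K] (G : CurveGD k B₀ B₁ B₀₁ K),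
    EChart B₁ B₀₁ x n q β f G → NonSpecial x G n q

/-- The universal chart ideal over `RepAlg k B₀ β`. -/
def univIdeal : Ideal (H251.RepAlg k B₀ β ⊗[k] B₀) :=
  (H251.chartRepEquiv k β (H251.RepAlg k B₀ β) (AlgHom.id k _)).1

/-- The ideal of `RepAlg k B₀ β` cutting out the divisors through the points `q`. -/
def vanishIdeal : Ideal (H251.RepAlg k B₀ β) :=
  ⨆ j, (univIdeal β).map (epsHom (q j) (H251.RepAlg k B₀ β)).toRingHom

/-- The ring of the chart `(q, β, f)`. -/
abbrev chartRing : Type u :=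
  Localization.Away (Ideal.Quotient.mk (vanishIdeal q β) f)

/-- `RepAlg k B₀ β → chartRing q β f`. -/
def toChartRing : H251.RepAlg k B₀ β →ₐ[k] chartRing q β f :=
  (IsScalarTower.toAlgHom k (H251.RepAlg k B₀ β ⧸ vanishIdeal q β) (chartRing q β f)).comp
    (Ideal.Quotient.mkₐ k (vanishIdeal q β))

/-- The divisor (ideal of `A ⊗ B₀`) attached to an `A`-point of the chart. -/
def chartIdeal {A : Type u} [CommRing A] [Algebra k A] (φ : chartRing q β f →ₐ[k] A) :
    Ideal (A ⊗[k] B₀) :=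
  (H251.chartRepEquiv k β A (φ.comp (toChartRing q β f))).1

end Charts

end

end Fermat.Agent.S25.H926
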