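import Fermat.Agent.S25.H926.AlgChartsDefs
import Fermat.Agent.S25.H926.AlgChartsFormal

/-!
# Row S25, block ALGCHARTS: the leaves (helper926) — FROZEN statements

Each leaf is a `Prop`; a leaf owner proves `theorem … [IsAlgClosed k] : Leaf.X k B₀ B₁ B₀₁`
(extra hypotheses: other leaves, DEGREE / GDC / HILB facts of the row).
`AlgChartsAssembly.lean` proves `Stmt.AlgCharts` from the leaves.

Math: board `origin/helper926:coord/S25-ALGCHARTS.md`.
-/

set_option autoImplicit false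
universe u
open scoped TensorProduct

namespace Fermat.Agent.S25.H926

open Fermat.Agent.S25

namespace Leaf

variable (k : Type u) [Field k] (B₀ B₁ B₀₁ : Type u) [CommRing B₀] [CommRing B₁] [CommRing B₀₁]
  [Algebra k B₀] [Algebra k B₁] [Algebra k B₀₁] [Algebra B₀ B₀₁] [Algebra B₁ B₀₁]
  [IsScalarTower k B₀ B₀₁] [IsScalarTower k B₁ B₀₁]

/-- **ADM** (= DEGREE D7): an admissible twist exists. -/
def Adm : Prop :=
  ∀ (x : B₀) (y : B₁) (e : B₁ →ₐ[k] k), IsCurveChart k B₀ B₁ B₀₁ x y e →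
    ∃ n m : ℕ, Admissible (k := k) (B₀₁ := B₀₁) x y n m

/-- **REP** (formal, HILB only): the functor of points of the chart ring: `A`-points are the
chart ideals for `β` through the points `q` at which `f` is invertible. -/
def Rep : Prop :=
  Algebra.FiniteType k B₀ →
  ∀ {m N : ℕ} (q : Fin m → (B₀ →ₐ[k] k)) (β : Fin N → B₀) (f : H251.RepAlg k B₀ β),
    Algebra.FiniteType k (chartRing q β f) ∧
    ∀ (A : Type u) [CommRing A] [Algebra k A],
      (∀ φ ψ : chartRing q β f →ₐ[k] A, chartIdeal q β f φ = chartIdeal q β f ψ → φ = ψ) ∧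
      ∀ I : Ideal (A ⊗[k] B₀), (∃ φ : chartRing q β f →ₐ[k] A, chartIdeal q β f φ = I) ↔
        ∃ hI : H251.IsChartIdeal k β A I, (∀ j, I ≤ pointIdeal (q j) A) ∧
          IsUnit ((H251.chartRepEquiv k β A).symm ⟨I, hI⟩ f)

/-- **UNIV** (GDC + HILB H3/H6 + DEGREE D4): over any `R`, a chart ideal `I` of degree `n·d`
has a universal datum `D = O(I)(-n)`: rigidifiable, of degree zero, and a datum `G` over `A` is
a base change of `D` along `φ` iff `G(n)` has a section with divisor `I ⊗_R A`. -/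
def Univ : Prop :=
  ∀ (x : B₀) (y : B₁) (e : B₁ →ₐ[k] k), IsCurveChart k B₀ B₁ B₀₁ x y e →
  ∀ (n : ℕ) (R : Type u) [CommRing R] [Algebra k R] (β : Fin (n * chartDegree k y) → B₀)
    (I : Ideal (R ⊗[k] B₀)), H251.IsChartIdeal k β R I →
    ∃ D : CurveGD k B₀ B₁ B₀₁ R, D.Rigidifiable e ∧ D.Deg0 ∧
      ∀ (A : Type u) [CommRing A] [Algebra k A] (φ : R →ₐ[k] A) (G : CurveGD k B₀ B₁ B₀₁ A),
        CurveGD.IsBC φ D G ↔ HasDivTw x G n (H251.baseIdeal φ I)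

/-- **INJ** (blueprint C3): on the non-special locus the divisor of `G` is unique. -/
def Inj : Prop :=
  ∀ (x : B₀) (y : B₁) (e : B₁ →ₐ[k] k), IsCurveChart k B₀ B₁ B₀₁ x y e →
  ∀ (n m : ℕ), Admissible (k := k) (B₀₁ := B₀₁) x y n m →
  ∀ (q : Fin m → (B₀ →ₐ[k] k)) (β : Fin (n * chartDegree k y) → B₀) (f : H251.RepAlg k B₀ β),
    IsNS B₁ B₀₁ x n q β f →
  ∀ (A : Type u) [CommRing A] [Algebra k A] (G : CurveGD k B₀ B₁ B₀₁ A)
    (I I' : Ideal (A ⊗[k] B₀)) (hI : H251.IsChartIdeal k β A I)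
    (hI' : H251.IsChartIdeal k β A I'),
    (∀ j, I ≤ pointIdeal (q j) A) → (∀ j, I' ≤ pointIdeal (q j) A) →
    IsUnit ((H251.chartRepEquiv k β A).symm ⟨I, hI⟩ f) →
    IsUnit ((H251.chartRepEquiv k β A).symm ⟨I', hI'⟩ f) →
    HasDivTw x G n I → HasDivTw x G n I' → I = I'

/-- **FIB** (blueprint C2 + C4 + C5): a rigidifiable degree-zero datum all of whose
field-valued fibres satisfy the chart condition satisfies the chart condition. -/
def Fib : Prop :=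
  ∀ (x : B₀) (y : B₁) (e : B₁ →ₐ[k] k), IsCurveChart k B₀ B₁ B₀₁ x y e →
  ∀ (n m : ℕ), Admissible (k := k) (B₀₁ := B₀₁) x y n m →
  ∀ (q : Fin m → (B₀ →ₐ[k] k)) (β : Fin (n * chartDegree k y) → B₀) (f : H251.RepAlg k B₀ β),
    IsNS B₁ B₀₁ x n q β f →
  ∀ (A : Type u) [CommRing A] [Algebra k A] (G : CurveGD k B₀ B₁ B₀₁ A),
    G.Rigidifiable e → G.Deg0 →
    (∀ (K : Type u) [Field K] [Algebra k K] (ψ : A →ₐ[k] K) (GK : CurveGD k B₀ B₁ B₀₁ K),
      CurveGD.IsBC ψ G GK → EChart B₁ B₀₁ x n q β f GK) →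
    EChart B₁ B₀₁ x n q β f G

/-- **SPREAD** (blueprint C5): the chart condition on fibres is open. -/
def Spread : Prop :=
  ∀ (x : B₀) (y : B₁) (e : B₁ →ₐ[k] k), IsCurveChart k B₀ B₁ B₀₁ x y e →
  ∀ (n m : ℕ), Admissible (k := k) (B₀₁ := B₀₁) x y n m →
  ∀ (q : Fin m → (B₀ →ₐ[k] k)) (β : Fin (n * chartDegree k y) → B₀) (f : H251.RepAlg k B₀ β),
    IsNS B₁ B₀₁ x n q β f →
  ∀ (A : Type u) [CommRing A] [Algebra k A] (G : CurveGD k B₀ B₁ B₀₁ A),
    G.Rigidifiable e → G.Deg0 →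
    ∀ (K : Type u) [Field K] [Algebra k K] (ψ : A →ₐ[k] K) (GK : CurveGD k B₀ B₁ B₀₁ K),
      CurveGD.IsBC ψ G GK → EChart B₁ B₀₁ x n q β f GK →
      ∃ a : A, ψ a ≠ 0 ∧
        ∀ (L : Type u) [Field L] [Algebra k L] (θ : A →ₐ[k] L) (Gθ : CurveGD k B₀ B₁ B₀₁ L),
          CurveGD.IsBC θ G Gθ → θ a ≠ 0 → EChart B₁ B₀₁ x n q β f Gθ

/-- **COVER** (blueprint C6): over an algebraically closed field every degree-zero datum
satisfies the chart condition of some non-special chart `(q, β, f)`. -/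
def Cover : Prop :=
  ∀ (x : B₀) (y : B₁) (e : B₁ →ₐ[k] k), IsCurveChart k B₀ B₁ B₀₁ x y e →
  ∀ (n m : ℕ), Admissible (k := k) (B₀₁ := B₀₁) x y n m →
  ∀ (K : Type u) [Field K] [Algebra k K] [IsAlgClosed K] (G : CurveGD k B₀ B₁ B₀₁ K),
    G.Rigidifiable e → G.degree = 0 →
    ∃ (q : Fin m → (B₀ →ₐ[k] k)) (β : Fin (n * chartDegree k y) → B₀)
      (f : H251.RepAlg k B₀ β), IsNS B₁ B₀₁ x n q β f ∧ EChart B₁ B₀₁ x n q β f G

end Leaf

end Fermat.Agent.S25.H926
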